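import Fermat.Agent.MW.Res.Val

/-!
# Program MW (S17), leaf (RES-SYM), part (W): the adapted basis over `K[T]`

Owner: helper5.  Prefix `mwrs_` / `Mwrs`.  Mathlib only.
-/

set_option autoImplicit false
set_option linter.style.haveILetI false

noncomputable section

namespace Fermat.Agent.MW

open Polynomial

variable {K B : Type*} [Field K] [CommRing B] [Algebra K B] (V : MwrsVal K B)

/-- an adapted family for `T`: for every residue class `j` mod `ord T` an element of minimal
order in that class, with leading coefficient `1` -/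
structure MwrsAdapted (T : B) where
  /-- the family -/
  e : Fin (V.ord T) → B
  lc_e : ∀ j, V.lc (e j) = 1
  ord_mod : ∀ j, V.ord (e j) % V.ord T = j
  ord_min : ∀ (j : Fin (V.ord T)) (b : B), b ≠ 0 → V.ord b % V.ord T = j → V.ord (e j) ≤ V.ord b

/-- adapted families exist as soon as every residue class is hit -/
theorem mwrs_exists_adapted (T : B)
    (h : ∀ j : Fin (V.ord T), ∃ b : B, b ≠ 0 ∧ V.ord b % V.ord T = j) :
    Nonempty (MwrsAdapted V T) := by
  classical
  have hex : ∀ j : Fin (V.ord T), ∃ m : ℕ, ∃ b : B, b ≠ 0 ∧ V.ord b = m ∧ m % V.ord T = j := by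
    intro j
    obtain ⟨b, hb, hj⟩ := h j
    exact ⟨V.ord b, b, hb, rfl, hj⟩
  have hspec := fun j => Nat.find_spec (hex j)
  choose b hb0 hbm hbj using hspec
  refine ⟨⟨fun j => (V.lc (b j))⁻¹ • b j, ?_, ?_, ?_⟩⟩
  · intro j
    rw [V.lc_smul, inv_mul_cancel₀ (V.lc_ne_zero (hb0 j))]
  · intro j
    rw [V.ord_smul (inv_ne_zero (V.lc_ne_zero (hb0 j))), hbm j]
    exact hbj j
  · intro j c hc hcj
    rw [V.ord_smul (inv_ne_zero (V.lc_ne_zero (hb0 j))), hbm j]
    exact Nat.find_min' (hex j) ⟨c, hc, rfl, hcj⟩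

theorem MwrsVal.aeval_ne_zero {T : B} (hT : 0 < V.ord T) {q : K[X]} (hq : q ≠ 0) :
    aeval T q ≠ 0 := by
  apply V.ne_zero_of_lc
  rw [(V.ord_lc_aeval hT hq).2]
  exact mul_ne_zero (leadingCoeff_ne_zero.2 hq)
    (pow_ne_zero _ (V.lc_ne_zero (V.ne_zero_of_ord_pos hT)))

variable {V}

namespace MwrsAdapted

variable {T : B} (A : MwrsAdapted V T)

theorem e_ne_zero (j : Fin (V.ord T)) : A.e j ≠ 0 :=
  V.ne_zero_of_lc (by rw [A.lc_e]; exact one_ne_zero)

/-- the `j`-th term of `∑ pⱼ(T) eⱼ` -/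
def term (p : Fin (V.ord T) → K[X]) (j : Fin (V.ord T)) : B := aeval T (p j) * A.e j

theorem term_ne_zero (hT : 0 < V.ord T) (p : Fin (V.ord T) → K[X]) {j : Fin (V.ord T)}
    (hj : p j ≠ 0) : A.term p j ≠ 0 := by
  have := V.isDomain
  exact mul_ne_zero (V.aeval_ne_zero hT hj) (A.e_ne_zero j)

theorem ord_term (hT : 0 < V.ord T) (p : Fin (V.ord T) → K[X]) {j : Fin (V.ord T)}
    (hj : p j ≠ 0) : V.ord (A.term p j) = V.ord T * (p j).natDegree + V.ord (A.e j) := by
  unfold term
  rw [V.ord_mul _ _ (V.aeval_ne_zero hT hj) (A.e_ne_zero j), (V.ord_lc_aeval hT hj).1]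

theorem lc_term (hT : 0 < V.ord T) (p : Fin (V.ord T) → K[X]) {j : Fin (V.ord T)}
    (hj : p j ≠ 0) : V.lc (A.term p j) = (p j).leadingCoeff * V.lc T ^ (p j).natDegree := by
  unfold term
  rw [V.lc_mul, (V.ord_lc_aeval hT hj).2, A.lc_e, mul_one]

theorem ord_term_mod (hT : 0 < V.ord T) (p : Fin (V.ord T) → K[X]) {j : Fin (V.ord T)}
    (hj : p j ≠ 0) : V.ord (A.term p j) % V.ord T = j := by
  rw [A.ord_term hT p hj, Nat.mul_add_mod, A.ord_mod]

/-- **the dominant term**: the order of `∑ pⱼ(T) eⱼ` is the maximum of the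
`ord T * deg pⱼ + ord eⱼ`, attained exactly once. -/
theorem dom (hT : 0 < V.ord T) (p : Fin (V.ord T) → K[X]) (hp : p ≠ 0) :
    ∃ i0, p i0 ≠ 0 ∧
      V.ord (∑ j, aeval T (p j) * A.e j) = V.ord T * (p i0).natDegree + V.ord (A.e i0) ∧
      V.lc (∑ j, aeval T (p j) * A.e j) = (p i0).leadingCoeff * V.lc T ^ (p i0).natDegree ∧
      ∀ i, i ≠ i0 → p i ≠ 0 →
        V.ord T * (p i).natDegree + V.ord (A.e i) <
          V.ord T * (p i0).natDegree + V.ord (A.e i0) := by
  classical
  have hne : (Finset.univ.filter fun j => p j ≠ 0).Nonempty := by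
    by_contra h
    rw [Finset.not_nonempty_iff_eq_empty, Finset.filter_eq_empty_iff] at h
    apply hp
    funext j
    have := h (Finset.mem_univ j)
    rwa [not_not] at this
  obtain ⟨i0, hi0, hmax⟩ := Finset.exists_max_image _ (fun j => V.ord (A.term p j)) hne
  have hi0' : p i0 ≠ 0 := (Finset.mem_filter.1 hi0).2
  have hlt : ∀ i, i ≠ i0 → p i ≠ 0 → V.ord (A.term p i) < V.ord (A.term p i0) := by
    intro i hi hpi
    refine lt_of_le_of_ne (hmax i (Finset.mem_filter.2 ⟨Finset.mem_univ i, hpi⟩)) ?_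
    intro heq
    apply hi
    apply Fin.ext
    rw [← A.ord_term_mod hT p hpi, ← A.ord_term_mod hT p hi0', heq]
  have key := V.sum_dom Finset.univ (A.term p) i0 (Finset.mem_univ i0) (A.term_ne_zero hT p hi0')
    (by
      intro i _ hi
      by_cases hpi : p i = 0
      · left
        unfold term
        rw [hpi, map_zero, zero_mul]
      · exact Or.inr (hlt i hi hpi))
  refine ⟨i0, hi0', ?_, ?_, ?_⟩
  · rw [← A.ord_term hT p hi0']; exact key.1
  · rw [← A.lc_term hT p hi0']; exact key.2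
  · intro i hi hpi
    rw [← A.ord_term hT p hpi, ← A.ord_term hT p hi0']
    exact hlt i hi hpi

/-- linear independence over `K[T]` -/
theorem indep (hT : 0 < V.ord T) (p : Fin (V.ord T) → K[X])
    (h : ∑ j, aeval T (p j) * A.e j = 0) : p = 0 := by
  by_contra hp
  obtain ⟨i0, hi0, -, hlc, -⟩ := A.dom hT p hp
  rw [h, V.lc_zero] at hlc
  exact mul_ne_zero (leadingCoeff_ne_zero.2 hi0)
    (pow_ne_zero _ (V.lc_ne_zero (V.ne_zero_of_ord_pos hT))) hlc.symm

/-- spanning over `K[T]` -/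
theorem span (hT : 0 < V.ord T) (b : B) :
    ∃ p : Fin (V.ord T) → K[X], b = ∑ j, aeval T (p j) * A.e j := by
  classical
  have hT0 : T ≠ 0 := V.ne_zero_of_ord_pos hT
  induction hm : V.ord b using Nat.strong_induction_on generalizing b with
  | _ m ih =>
    by_cases hb : b = 0
    · exact ⟨0, by simp [hb]⟩
    -- the class of `ord b`
    set j : Fin (V.ord T) := ⟨V.ord b % V.ord T, Nat.mod_lt _ hT⟩ with hj
    have hle : V.ord (A.e j) ≤ V.ord b := A.ord_min j b hb rfl
    have hmod : V.ord (A.e j) % V.ord T = V.ord b % V.ord T := A.ord_mod j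
    -- `ord b = ord e_j + ord T * k`
    obtain ⟨k, hk⟩ : ∃ k, V.ord b = V.ord (A.e j) + V.ord T * k := by
      have hdvd : V.ord T ∣ V.ord b - V.ord (A.e j) := (Nat.modEq_iff_dvd' hle).1 hmod
      obtain ⟨k, hk⟩ := hdvd
      exact ⟨k, by omega⟩
    have hlT : V.lc T ≠ 0 := V.lc_ne_zero hT0
    set c : K := V.lc b / V.lc T ^ k with hc
    have hc0 : c ≠ 0 := div_ne_zero (V.lc_ne_zero hb) (pow_ne_zero _ hlT)
    set b' : B := c • (T ^ k * A.e j) with hb'
    have hTk : T ^ k * A.e j ≠ 0 := by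
      have := V.isDomain
      exact mul_ne_zero (pow_ne_zero _ hT0) (A.e_ne_zero j)
    have hob' : V.ord b' = V.ord b := by
      rw [hb', V.ord_smul hc0, V.ord_mul _ _ (V.pow_ne_zero' hT0 k) (A.e_ne_zero j),
        V.ord_pow hT0, hk]
      ring
    have hlb' : V.lc b' = V.lc b := by
      rw [hb', V.lc_smul, V.lc_mul, V.lc_pow, A.lc_e, mul_one, hc]
      field_simp
    have hb'eq : b' = ∑ i, aeval T ((Pi.single j (C c * X ^ k) : Fin (V.ord T) → K[X]) i) * A.e i := by
      rw [Finset.sum_eq_single j]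
      · rw [Pi.single_eq_same, map_mul, aeval_C, map_pow, aeval_X, hb', Algebra.smul_def, mul_assoc]
      · intro i _ hi
        rw [Pi.single_eq_of_ne hi, map_zero, zero_mul]
      · intro h
        exact absurd (Finset.mem_univ j) h
    by_cases hbb : b = b'
    · exact ⟨_, hbb.trans hb'eq⟩
    · have hlt : V.ord (b - b') < m := by
        rw [← hm]
        exact V.ord_sub_lt b b' hbb hob'.symm hlb'.symm
      obtain ⟨q, hq⟩ := ih _ hlt (b - b') rfl
      refine ⟨q + Pi.single j (C c * X ^ k), ?_⟩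
      have : b = (b - b') + b' := by ring
      rw [this, hq, hb'eq, ← Finset.sum_add_distrib]
      refine Finset.sum_congr rfl fun i _ => ?_
      rw [Pi.add_apply, map_add, add_mul]

end MwrsAdapted

end Fermat.Agent.MW
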