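import Mathlib
import Fermat.Agent.S20.FFDifferent
import Fermat.Agent.V.Pres.OnePoint

/-!
# Program MW (S17), heights half, leaf (CRT): the product formula for `ρ(u, T)`
(prefix `mwcr_`)

`B` a Dedekind domain, a `K`-algebra all of whose residue fields are `K`.  For `u ≠ 0` and `T` in `B`
the determinant of the multiplication by `T` on the finite dimensional `K`-space `B ⧸ (u)` is
`∏_P T(P) ^ ord_P(u)`, the product over the height one primes (= points) of `B`.

* `mwcrVal K P T : K` – the value of `T` at `P` (the constant `c` with `T - c ∈ P`);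
* `mwcr_det_mul_step` – one step of the filtration: `det (T | B ⧸ P * J) = T(P) * det (T | B ⧸ J)`;
* `mwcr_det_eq_multiset_prod` – `det (T | B ⧸ J) = ∏_{P ∈ normalizedFactors J} T(P)`;
* `mwcr_det_eq_finprod` – the same as a `finprod` over the height one spectrum with multiplicities.
-/

set_option autoImplicit false
set_option linter.unusedSectionVars false

noncomputable section

namespace Fermat.Agent.MW

open Module UniqueFactorizationMonoid IsDedekindDomain HeightOneSpectrum Fermat.Agent.S20

section Val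

variable (K : Type*) {B : Type*} [Field K] [CommRing B] [Algebra K B]

open Classical in
/-- the value of `T` at the ideal `P`: the constant `c` with `T - c ∈ P` (`0` if there is none) -/
def mwcrVal (P : Ideal B) (T : B) : K :=
  if h : ∃ c : K, T - algebraMap K B c ∈ P then h.choose else 0

variable {K}

theorem mwcrVal_spec {P : Ideal B} {T : B} (h : ∃ c : K, T - algebraMap K B c ∈ P) :
    T - algebraMap K B (mwcrVal K P T) ∈ P := by
  unfold mwcrVal
  rw [dif_pos h]
  exact h.choose_spec

theorem mwcrVal_spec_of_surjective {P : Ideal B}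
    (hres : Function.Surjective (algebraMap K (B ⧸ P))) (T : B) :
    T - algebraMap K B (mwcrVal K P T) ∈ P := by
  apply mwcrVal_spec
  obtain ⟨c, hc⟩ := hres (Ideal.Quotient.mk P T)
  refine ⟨c, ?_⟩
  rw [← Ideal.Quotient.eq, ← hc]
  rfl

theorem mwcrVal_eq {P : Ideal B} (hP : P ≠ ⊤) {T : B} {c : K} (hc : T - algebraMap K B c ∈ P) :
    mwcrVal K P T = c := by
  have h := mwcrVal_spec ⟨c, hc⟩
  by_contra hne
  have hmem : algebraMap K B (mwcrVal K P T - c) ∈ P := by
    have := P.sub_mem hc h
    rw [map_sub]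
    convert this using 1
    ring
  have hunit : IsUnit (algebraMap K B (mwcrVal K P T - c)) :=
    (IsUnit.mk0 _ (sub_ne_zero.mpr hne)).map _
  exact hP (Ideal.eq_top_of_isUnit_mem _ hmem hunit)

end Val


section Step

variable {B : Type*} [CommRing B] [IsDedekindDomain B] (K : Type*) [Field K] [Algebra K B]

/-- multiplication by `T` on `B ⧸ J`, as a `K`-linear map -/
def mwcrMul (J : Ideal B) (T : B) : (B ⧸ J) →ₗ[K] (B ⧸ J) :=
  LinearMap.mulLeft K (Ideal.Quotient.mk J T)

theorem mwcrMul_def (J : Ideal B) (T : B) :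
    mwcrMul K J T = LinearMap.mulLeft K (Ideal.Quotient.mk J T) := rfl

@[simp] theorem mwcrMul_apply (J : Ideal B) (T c : B) :
    mwcrMul K J T (Ideal.Quotient.mk J c) = Ideal.Quotient.mk J (T * c) := by
  rw [mwcrMul, LinearMap.mulLeft_apply, map_mul]

/-- one step of the filtration: `det (T | B ⧸ P * J) = T(P) * det (T | B ⧸ J)` -/
theorem mwcr_det_mul_step
    (hres : ∀ P : Ideal B, P.IsMaximal → Function.Surjective (algebraMap K (B ⧸ P)))
    {P J : Ideal B} (hP : Prime P) (hJ : J ≠ 0) [Module.Finite K (B ⧸ J)] (T : B) :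
    LinearMap.det (mwcrMul K (P * J) T) = mwcrVal K P T * LinearMap.det (mwcrMul K J T) := by
  have hPprime : P.IsPrime := Ideal.isPrime_of_prime hP
  have hPmax : P.IsMaximal := hPprime.isMaximal hP.ne_zero
  obtain ⟨hfin, hrank⟩ := ffdim_quotient_mul_step K hres hP hJ
  have hle : P * J ≤ J := Ideal.mul_le_right
  let f : (B ⧸ P * J) →ₗ[K] (B ⧸ J) := (Ideal.Quotient.factorₐ K hle).toLinearMap
  have hf : ∀ c : B, f (Ideal.Quotient.mk _ c) = Ideal.Quotient.mk _ c := fun c => rfl
  have hsurj : Function.Surjective f := by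
    intro y
    obtain ⟨c, rfl⟩ := Ideal.Quotient.mk_surjective y
    exact ⟨Ideal.Quotient.mk _ c, hf c⟩
  set W := LinearMap.ker f with hW
  set e := mwcrMul K (P * J) T with he_def
  have he : W ≤ W.comap e := by
    intro x hx
    obtain ⟨c, rfl⟩ := Ideal.Quotient.mk_surjective x
    rw [hW, LinearMap.mem_ker, hf] at hx
    rw [Submodule.mem_comap, hW, LinearMap.mem_ker, he_def, mwcrMul_apply, hf, map_mul, hx,
      mul_zero]
  rw [LinearMap.det_eq_det_mul_det W e he]
  congr 1
  · have hχ := mwcrVal_spec_of_surjective (hres P hPmax) T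
    have hrestr : e.restrict (p := W) (q := W) he = (mwcrVal K P T) • LinearMap.id := by
      ext ⟨x, hx⟩
      obtain ⟨c, rfl⟩ := Ideal.Quotient.mk_surjective x
      have hc : c ∈ J := by
        rwa [hW, LinearMap.mem_ker, hf, Ideal.Quotient.eq_zero_iff_mem] at hx
      show e (Ideal.Quotient.mk (P * J) c) = mwcrVal K P T • Ideal.Quotient.mk (P * J) c
      rw [he_def, mwcrMul_apply, Algebra.smul_def,
        show algebraMap K (B ⧸ P * J) (mwcrVal K P T) =
          Ideal.Quotient.mk (P * J) (algebraMap K B (mwcrVal K P T)) from rfl,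
        ← map_mul, Ideal.Quotient.eq]
      have : T * c - algebraMap K B (mwcrVal K P T) * c =
          (T - algebraMap K B (mwcrVal K P T)) * c := by ring
      rw [this]
      exact Ideal.mul_mem_mul hχ hc
    have hdim : finrank K W = 1 := by
      have h1 := LinearMap.finrank_range_add_finrank_ker f
      rw [LinearMap.range_eq_top.2 hsurj, finrank_top, hrank] at h1
      have h2 : finrank K (LinearMap.ker f) = 1 := by omega
      exact h2
    rw [hrestr, LinearMap.det_smul, LinearMap.det_id, mul_one, hdim, pow_one]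
  · let φ : ((B ⧸ P * J) ⧸ W) ≃ₗ[K] (B ⧸ J) := f.quotKerEquivOfSurjective hsurj
    rw [← LinearMap.det_conj (W.mapQ W e he) φ]
    congr 1
    ext y
    obtain ⟨c, rfl⟩ := Ideal.Quotient.mk_surjective y
    have hsymm : φ.symm (Ideal.Quotient.mk J c) =
        Submodule.Quotient.mk (Ideal.Quotient.mk (P * J) c) := by
      rw [LinearEquiv.symm_apply_eq]
      rfl
    simp only [LinearMap.comp_apply, LinearEquiv.coe_coe]
    rw [hsymm, Submodule.mapQ_apply, he_def, mwcrMul_apply, mwcrMul_apply]
    rfl

end Step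


section Product

variable {B : Type*} [CommRing B] [IsDedekindDomain B] (K : Type*) [Field K] [Algebra K B]

/-- `det (T | B ⧸ J) = ∏_{P ∈ normalizedFactors J} T(P)` -/
theorem mwcr_det_eq_multiset_prod
    (hres : ∀ P : Ideal B, P.IsMaximal → Function.Surjective (algebraMap K (B ⧸ P)))
    (J : Ideal B) (hJ : J ≠ 0) (T : B) :
    Module.Finite K (B ⧸ J) ∧
      LinearMap.det (mwcrMul K J T) =
        ((normalizedFactors J).map (fun P => mwcrVal K P T)).prod := by
  induction J using UniqueFactorizationMonoid.induction_on_prime with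
  | h₁ => exact absurd rfl hJ
  | h₂ x hx =>
    have : x = ⊤ := Ideal.isUnit_iff.1 hx
    subst this
    have : Subsingleton (B ⧸ (⊤ : Ideal B)) := Ideal.Quotient.subsingleton_iff.2 rfl
    refine ⟨inferInstance, ?_⟩
    have h0 : normalizedFactors (⊤ : Ideal B) = 0 := by
      rw [← Ideal.one_eq_top]; exact normalizedFactors_one
    rw [h0, Multiset.map_zero, Multiset.prod_zero]
    have : mwcrMul K (⊤ : Ideal B) T = 1 := Subsingleton.elim _ _
    rw [this, map_one]
  | h₃ J P hJ0 hP ih =>
    obtain ⟨hfin, hdet⟩ := ih hJ0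
    obtain ⟨h1, -⟩ := ffdim_quotient_mul_step K hres hP hJ0
    refine ⟨h1, ?_⟩
    rw [mwcr_det_mul_step K hres hP hJ0 T, hdet, normalizedFactors_mul hP.ne_zero hJ0,
      Multiset.map_add, Multiset.prod_add, normalizedFactors_irreducible hP.irreducible,
      normalize_eq, Multiset.map_singleton, Multiset.prod_singleton]

/-- a product over the prime factors as a `finprod` over the height one spectrum -/
theorem mwcr_multiset_prod_eq_finprod (J : Ideal B) (hJ : J ≠ 0) (φ : Ideal B → K) :
    (Function.mulSupport fun P : HeightOneSpectrum B =>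
        φ P.asIdeal ^ multiplicity P.asIdeal J).Finite ∧
      ((normalizedFactors J).map φ).prod =
        ∏ᶠ P : HeightOneSpectrum B, φ P.asIdeal ^ multiplicity P.asIdeal J := by
  classical
  have hcount : ∀ P : HeightOneSpectrum B,
      (normalizedFactors J).count P.asIdeal = multiplicity P.asIdeal J := by
    intro P
    have hfm : FiniteMultiplicity P.asIdeal J := FiniteMultiplicity.of_prime_left P.prime hJ
    have h1 := emultiplicity_eq_count_normalizedFactors P.irreducible hJ
    rw [normalize_eq, hfm.emultiplicity_eq_multiplicity] at h1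
    exact_mod_cast h1.symm
  have hfin : {P : HeightOneSpectrum B | P.asIdeal ∣ J}.Finite := Ideal.finite_factors hJ
  have hsupp : (Function.mulSupport fun P : HeightOneSpectrum B =>
      φ P.asIdeal ^ multiplicity P.asIdeal J) ⊆ {P : HeightOneSpectrum B | P.asIdeal ∣ J} := by
    intro P hP
    rw [Function.mem_mulSupport] at hP
    have : multiplicity P.asIdeal J ≠ 0 := by
      intro h0
      rw [h0, pow_zero] at hP
      exact hP rfl
    rw [← hcount P, Multiset.count_ne_zero] at this
    exact dvd_of_mem_normalizedFactors this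
  refine ⟨hfin.subset hsupp, ?_⟩
  rw [finprod_eq_prod_of_mulSupport_subset _ (s := hfin.toFinset) (by simpa using hsupp)]
  rw [Finset.prod_multiset_map_count]
  symm
  refine Finset.prod_bij (fun P _ => P.asIdeal) ?_ ?_ ?_ ?_
  · intro P hP
    rw [Set.Finite.mem_toFinset, Set.mem_ofPred_eq] at hP
    rw [Multiset.mem_toFinset]
    exact (mem_normalizedFactors_iff' hJ).2 ⟨P.irreducible, normalize_eq _, hP⟩
  · intro P _ Q _ h
    exact HeightOneSpectrum.ext h
  · intro I hI
    rw [Multiset.mem_toFinset] at hI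
    have hprime : Prime I := prime_of_normalized_factor I hI
    refine ⟨⟨I, Ideal.isPrime_of_prime hprime, hprime.ne_zero⟩, ?_, rfl⟩
    rw [Set.Finite.mem_toFinset, Set.mem_ofPred_eq]
    exact dvd_of_mem_normalizedFactors hI
  · intro P _
    rw [hcount P]

/-- **the product formula**: `det (T | B ⧸ J) = ∏_P T(P) ^ mult_P(J)` -/
theorem mwcr_det_eq_finprod
    (hres : ∀ P : Ideal B, P.IsMaximal → Function.Surjective (algebraMap K (B ⧸ P)))
    (J : Ideal B) (hJ : J ≠ 0) (T : B) :
    LinearMap.det (mwcrMul K J T) =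
      ∏ᶠ P : HeightOneSpectrum B, mwcrVal K P.asIdeal T ^ multiplicity P.asIdeal J := by
  rw [(mwcr_det_eq_multiset_prod K hres J hJ T).2]
  exact (mwcr_multiset_prod_eq_finprod K J hJ (fun P => mwcrVal K P T)).2

end Product


section Char

variable {K B : Type*} [Field K] [CommRing B] [Algebra K B]

theorem mwcrVal_eq_of_ker (q : B →ₐ[K] K) (P : Ideal B) (hP : P = RingHom.ker q) (T : B) :
    mwcrVal K P T = q T := by
  apply mwcrVal_eq
  · rw [hP]
    exact RingHom.ker_ne_top _
  · rw [hP, RingHom.mem_ker, map_sub, AlgHom.commutes, Algebra.algebraMap_self_apply,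
      sub_self]

theorem mwcrVal_algebraMap {P : Ideal B} (hP : P ≠ ⊤) (c : K) :
    mwcrVal K P (algebraMap K B c) = c :=
  mwcrVal_eq hP (by rw [sub_self]; exact P.zero_mem)

theorem mwcrVal_eq_zero_iff {P : Ideal B} (hP : P ≠ ⊤)
    (hres : Function.Surjective (algebraMap K (B ⧸ P))) (T : B) :
    mwcrVal K P T = 0 ↔ T ∈ P := by
  constructor
  · intro h
    have := mwcrVal_spec_of_surjective hres T
    rwa [h, map_zero, sub_zero] at this
  · intro h
    exact mwcrVal_eq hP (by rwa [map_zero, sub_zero])

theorem mwcrVal_add {P : Ideal B} (hP : P ≠ ⊤)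
    (hres : Function.Surjective (algebraMap K (B ⧸ P))) (S T : B) :
    mwcrVal K P (S + T) = mwcrVal K P S + mwcrVal K P T := by
  apply mwcrVal_eq hP
  have h1 := mwcrVal_spec_of_surjective hres S
  have h2 := mwcrVal_spec_of_surjective hres T
  have := P.add_mem h1 h2
  rw [map_add]
  convert this using 1
  ring

theorem mwcrVal_mul {P : Ideal B} (hP : P ≠ ⊤)
    (hres : Function.Surjective (algebraMap K (B ⧸ P))) (S T : B) :
    mwcrVal K P (S * T) = mwcrVal K P S * mwcrVal K P T := by
  apply mwcrVal_eq hP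
  have h1 := mwcrVal_spec_of_surjective hres S
  have h2 := mwcrVal_spec_of_surjective hres T
  have := P.add_mem (P.mul_mem_right T h1) (P.mul_mem_left (algebraMap K B (mwcrVal K P S)) h2)
  rw [map_mul]
  convert this using 1
  ring

/-- the residue character of a proper ideal with residue field `K` -/
def mwcrChar (P : Ideal B) (hP : P ≠ ⊤) (hres : Function.Surjective (algebraMap K (B ⧸ P))) :
    B →ₐ[K] K where
  toFun := mwcrVal K P
  map_one' := by
    have := mwcrVal_algebraMap (K := K) hP 1
    rwa [map_one] at this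
  map_mul' := mwcrVal_mul hP hres
  map_zero' := by
    have := mwcrVal_algebraMap (K := K) hP 0
    rwa [map_zero] at this
  map_add' := mwcrVal_add hP hres
  commutes' := fun c => mwcrVal_algebraMap hP c

@[simp] theorem mwcrChar_apply (P : Ideal B) (hP : P ≠ ⊤)
    (hres : Function.Surjective (algebraMap K (B ⧸ P))) (T : B) :
    mwcrChar P hP hres T = mwcrVal K P T := rfl

theorem mwcrChar_ker (P : Ideal B) (hP : P ≠ ⊤)
    (hres : Function.Surjective (algebraMap K (B ⧸ P))) :
    RingHom.ker (mwcrChar P hP hres) = P := by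
  ext T
  rw [RingHom.mem_ker]
  exact mwcrVal_eq_zero_iff hP hres T

end Char

section Vanish

variable {B : Type*} [CommRing B] [IsDedekindDomain B] (K : Type*) [Field K] [Algebra K B]

/-- the determinant vanishes iff `T` and `J` have a common prime -/
theorem mwcr_det_eq_zero_iff
    (hres : ∀ P : Ideal B, P.IsMaximal → Function.Surjective (algebraMap K (B ⧸ P)))
    (J : Ideal B) (hJ : J ≠ 0) (T : B) :
    LinearMap.det (mwcrMul K J T) = 0 ↔
      ∃ P : HeightOneSpectrum B, J ≤ P.asIdeal ∧ T ∈ P.asIdeal := by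
  rw [(mwcr_det_eq_multiset_prod K hres J hJ T).2, Multiset.prod_eq_zero_iff, Multiset.mem_map]
  constructor
  · rintro ⟨I, hI, h0⟩
    have hprime : Prime I := prime_of_normalized_factor I hI
    have hIp : I.IsPrime := Ideal.isPrime_of_prime hprime
    have hImax : I.IsMaximal := hIp.isMaximal hprime.ne_zero
    refine ⟨⟨I, hIp, hprime.ne_zero⟩, Ideal.le_of_dvd (dvd_of_mem_normalizedFactors hI), ?_⟩
    exact (mwcrVal_eq_zero_iff hIp.ne_top (hres I hImax) T).mp h0
  · rintro ⟨P, hJP, hT⟩
    refine ⟨P.asIdeal, ?_, ?_⟩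
    · exact (mem_normalizedFactors_iff' hJ).2
        ⟨P.irreducible, normalize_eq _, Ideal.dvd_iff_le.mpr hJP⟩
    · exact (mwcrVal_eq_zero_iff P.isPrime.ne_top (hres _ P.isMaximal) T).mpr hT

end Vanish

section Closed

variable {K M B : Type*} [Field K] [IsAlgClosed K] [Field M] [Algebra K M] [CommRing B]
  [IsDedekindDomain B] [Algebra K B] [Algebra B M] [IsScalarTower K B M] [IsFractionRing B M]

theorem mwcr_hres (hfin : ∀ P : Ideal B, P.IsMaximal → Module.Finite K (B ⧸ P)) :
    ∀ P : Ideal B, P.IsMaximal → Function.Surjective (algebraMap K (B ⧸ P)) :=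
  fun P hP => (v27c_residue_bijective hfin P hP).2

/-- **the product formula in terms of the orders at the places of the primes of `B`**:
`det (T | B ⧸ (u)) = ∏_P T(P) ^ ord_P(u)` -/
theorem mwcr_det_span_eq_finprod_ord
    (hfin : ∀ P : Ideal B, P.IsMaximal → Module.Finite K (B ⧸ P)) {u : B} (hu : u ≠ 0) (T : B) :
    LinearMap.det (mwcrMul K (Ideal.span {u}) T) =
      ∏ᶠ P : HeightOneSpectrum B, mwcrVal K P.asIdeal T ^
        ((AlgebraicCurve.Place.ofHeightOneSpectrum (K := K) (F := M) P).ord
          (algebraMap B M u)).toNat := by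
  have hsr : Ideal.span {u} ≠ 0 := Submodule.span_singleton_eq_bot.mp.mt hu
  rw [mwcr_det_eq_finprod K (mwcr_hres hfin) _ hsr T]
  refine finprod_congr fun P => ?_
  rw [v27c_ord_eq_multiplicity P hu, Int.toNat_natCast]

end Closed


section Norm

variable {B : Type*} [CommRing B] (K : Type*) [Field K] [Algebra K B]

/-- `mwcrMul` is Mathlib's `Algebra.lmul`, so its determinant is the norm -/
theorem mwcr_det_eq_norm (J : Ideal B) (T : B) :
    LinearMap.det (mwcrMul K J T) = Algebra.norm K (Ideal.Quotient.mk J T) := by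
  rw [Algebra.norm_apply]
  rfl

end Norm

end Fermat.Agent.MW
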