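import Mathlib

/-!
# Program MW (S17), leaf (RES-SYM), part (D): determinants on quotients of free `K[X]`-algebras

Owner: helper5.  Prefix `mwrs_`.  Mathlib only.

* `mwrsRho K u T` : the determinant of multiplication by `T` on the `K`-space `B ⧸ (u)`
  (`= Algebra.norm K` of the class of `T`);
* `mwrs_det_pi` : determinant of a product of endomorphisms of a dependent finite family;
* `mwrs_norm_root` : on `K[X] ⧸ (a)`, `a ≠ 0`, the determinant of `X` is
  `(-1)^deg a * a(0) / lc(a)`;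
* `mwrs_rho_X` (D1) : for a domain `S`, finite free over `K[X]`, and `f ≠ 0`:
  `ρ(f, X) * lc(N f) = (-1)^(deg N f) * (N f)(0)`, `N = Algebra.norm K[X]`;
* `mwrs_rho_of_X` (D2) : `ρ(X, f) = (N f)(0)`;
* `mwrs_sym0` : `ρ(f, X) * lc(N f) = (-1)^(deg N f) * ρ(X, f)`.
-/

set_option autoImplicit false
set_option linter.style.haveILetI false

noncomputable section

namespace Fermat.Agent.MW

open Polynomial Module

/-- the determinant of multiplication by `T` on the `K`-space `B ⧸ (u)` -/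
def mwrsRho (K : Type*) {B : Type*} [Field K] [CommRing B] [Algebra K B] (u T : B) : K :=
  Algebra.norm K (Ideal.Quotient.mk (Ideal.span {u}) T)

/-! ### determinant of a dependent product -/

theorem mwrs_det_pi {R : Type*} [CommRing R] : ∀ (n : ℕ) (M : Fin n → Type*)
    [∀ i, AddCommGroup (M i)] [∀ i, Module R (M i)]
    [∀ i, Module.Free R (M i)] [∀ i, Module.Finite R (M i)]
    (f : ∀ i, M i →ₗ[R] M i),
    LinearMap.det (LinearMap.pi fun i => (f i).comp (LinearMap.proj i)) =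
      ∏ i, LinearMap.det (f i)
  | 0, M, _, _, _, _, f => by
    rw [Finset.univ_eq_empty, Finset.prod_empty]
    exact LinearMap.det_eq_one_of_subsingleton _
  | (n + 1), M, _, _, _, _, f => by
    have ih := mwrs_det_pi n (fun i => M (Fin.succ i)) (fun i => f (Fin.succ i))
    rw [Fin.prod_univ_succ, ← ih, ← LinearMap.det_prodMap]
    rw [← LinearMap.det_conj _ (Fin.consLinearEquiv R M)]
    congr 1
    apply LinearMap.ext
    intro x
    funext i
    refine Fin.cases ?_ (fun j => ?_) i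
    · simp [Fin.consLinearEquiv]
    · simp [Fin.consLinearEquiv, Fin.tail]

/-! ### the cyclic case -/

variable {K : Type*} [Field K]

theorem mwrs_norm_root (a : K[X]) (ha : a ≠ 0) :
    Algebra.norm K (AdjoinRoot.root a) = (-1) ^ a.natDegree * (a.coeff 0 / a.leadingCoeff) := by
  have h := Algebra.PowerBasis.norm_gen_eq_coeff_zero_minpoly (AdjoinRoot.powerBasis ha)
  rw [AdjoinRoot.powerBasis_gen, AdjoinRoot.powerBasis_dim, AdjoinRoot.minpoly_root ha] at h
  rw [h, mul_comm a, coeff_C_mul, div_eq_inv_mul]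

/-- the determinant of `X •` on `K[X] ⧸ (a)` -/
theorem mwrs_det_smulX_quot (a : K[X]) (ha : a ≠ 0) :
    LinearMap.det ((LinearMap.lsmul K[X] (K[X] ⧸ Ideal.span {a}) X).restrictScalars K) =
      (-1) ^ a.natDegree * (a.coeff 0 / a.leadingCoeff) := by
  rw [← mwrs_norm_root a ha, Algebra.norm_apply]
  congr 1

/-! ### (D1): the determinant of `X` on `S ⧸ (f)` -/

section D

variable {S : Type*} [CommRing S] [Algebra K[X] S] [Algebra K S]
  [IsScalarTower K K[X] S]

theorem mwrs_rho_eq_det_smul (I : Ideal S) :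
    Algebra.norm K (Ideal.Quotient.mk I (algebraMap K[X] S X)) =
      LinearMap.det ((LinearMap.lsmul K[X] (S ⧸ I) X).restrictScalars K) := by
  rw [Algebra.norm_apply]
  congr 1
  apply LinearMap.ext
  intro y
  induction y using Quotient.inductionOn' with
  | h s =>
    show Ideal.Quotient.mk I (algebraMap K[X] S X) * Ideal.Quotient.mk I s =
      (X : K[X]) • Ideal.Quotient.mk I s
    rw [← map_mul, ← Algebra.smul_def]
    rfl

theorem mwrs_det_smulX_pi {n : ℕ} (a : Fin n → K[X]) (ha : ∀ i, a i ≠ 0) :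
    LinearMap.det ((LinearMap.lsmul K[X] (∀ i, K[X] ⧸ Ideal.span {a i}) X).restrictScalars K) =
      ∏ i, ((-1) ^ (a i).natDegree * ((a i).coeff 0 / (a i).leadingCoeff)) := by
  have : ∀ i, Module.Finite K (K[X] ⧸ Ideal.span {a i}) := fun i =>
    Module.Finite.of_basis (AdjoinRoot.powerBasis (ha i)).basis
  have h := mwrs_det_pi (R := K) n (fun i => K[X] ⧸ Ideal.span {a i})
    (fun i => (LinearMap.lsmul K[X] (K[X] ⧸ Ideal.span {a i}) X).restrictScalars K)
  rw [Finset.prod_congr rfl (fun i _ => mwrs_det_smulX_quot (a i) (ha i))] at h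
  rw [← h]
  congr 1

/-- `(-1)^deg * coeff 0 / lc` is multiplicative -/
theorem mwrs_ratio_prod {n : ℕ} (a : Fin n → K[X]) (ha : ∀ i, a i ≠ 0) :
    ∏ i, ((-1) ^ (a i).natDegree * ((a i).coeff 0 / (a i).leadingCoeff)) =
      (-1) ^ (∏ i, a i).natDegree * ((∏ i, a i).coeff 0 / (∏ i, a i).leadingCoeff) := by
  rw [Polynomial.natDegree_prod _ _ (fun i _ => ha i), Polynomial.leadingCoeff_prod,
    Polynomial.coeff_zero_prod, Finset.prod_mul_distrib, Finset.prod_pow_eq_pow_sum,
    Finset.prod_div_distrib]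

theorem mwrs_rho_X [IsDomain S] {n : ℕ} (b : Basis (Fin n) K[X] S) (f : S) (hf : f ≠ 0) :
    mwrsRho K f (algebraMap K[X] S X) * (Algebra.norm K[X] f).leadingCoeff =
      (-1) ^ (Algebra.norm K[X] f).natDegree * (Algebra.norm K[X] f).coeff 0 := by
  have hI : Ideal.span {f} ≠ (⊥ : Ideal S) := Ideal.span_singleton_eq_bot.not.2 hf
  have ha : ∀ i, (Ideal.span {f}).smithCoeffs b hI i ≠ 0 :=
    fun i => Ideal.smithCoeffs_ne_zero b _ hI i
  have h1 : mwrsRho K f (algebraMap K[X] S X) =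
      ∏ i, ((-1) ^ ((Ideal.span {f}).smithCoeffs b hI i).natDegree *
        (((Ideal.span {f}).smithCoeffs b hI i).coeff 0 /
          ((Ideal.span {f}).smithCoeffs b hI i).leadingCoeff)) := by
    unfold mwrsRho
    rw [mwrs_rho_eq_det_smul, ← mwrs_det_smulX_pi _ ha,
      ← LinearMap.det_conj _ ((Ideal.quotientEquivPiSpan (Ideal.span {f}) b hI).restrictScalars K)]
    congr 1
    apply LinearMap.ext
    intro y
    simp
  rw [h1, mwrs_ratio_prod _ ha]
  obtain ⟨w, hw⟩ := associated_norm_prod_smith b hf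
  have hP : (∏ i, (Ideal.span {f}).smithCoeffs b hI i) ≠ 0 :=
    Finset.prod_ne_zero_iff.2 (fun i _ => ha i)
  rw [← hw]
  obtain ⟨c, hc, hcw⟩ := Polynomial.isUnit_iff.1 w.isUnit
  have hc0 : c ≠ 0 := hc.ne_zero
  have hN : Algebra.norm K[X] f ≠ 0 := by
    intro h0
    rw [h0, zero_mul] at hw
    exact hP hw.symm
  rw [← hcw, Polynomial.natDegree_mul_C hc0, Polynomial.leadingCoeff_mul, Polynomial.leadingCoeff_C,
    Polynomial.coeff_mul_C]
  have hl : (Algebra.norm K[X] f).leadingCoeff ≠ 0 := Polynomial.leadingCoeff_ne_zero.2 hN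
  field_simp

/-! ### (D2): the determinant of `f` on `S ⧸ (X)` -/

/-- the constant terms of the coordinates -/
def mwrsPhi {n : ℕ} (b : Basis (Fin n) K[X] S) : S →ₗ[K] (Fin n → K) :=
  ((Polynomial.lcoeff K 0).compLeft (Fin n)).comp (b.equivFun.restrictScalars K).toLinearMap

theorem mwrsPhi_apply {n : ℕ} (b : Basis (Fin n) K[X] S) (s : S) (i : Fin n) :
    mwrsPhi b s i = (b.repr s i).coeff 0 := rfl

theorem mwrsPhi_surjective {n : ℕ} (b : Basis (Fin n) K[X] S) :
    Function.Surjective (mwrsPhi b) := by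
  intro c
  refine ⟨∑ i, (C (c i)) • b i, ?_⟩
  funext i
  rw [mwrsPhi_apply]
  simp [map_sum, Finsupp.single_apply]

theorem mwrsPhi_ker {n : ℕ} (b : Basis (Fin n) K[X] S) :
    LinearMap.ker (mwrsPhi b) =
      (Ideal.span {algebraMap K[X] S X}).restrictScalars K := by
  ext s
  rw [LinearMap.mem_ker, Submodule.restrictScalars_mem, Ideal.mem_span_singleton]
  constructor
  · intro h
    have hX : ∀ i, X ∣ b.repr s i := fun i => X_dvd_iff.2 (congrFun h i)
    choose q hq using hX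
    refine ⟨∑ i, q i • b i, ?_⟩
    conv_lhs => rw [← b.sum_repr s]
    rw [Finset.mul_sum]
    refine Finset.sum_congr rfl fun i _ => ?_
    rw [hq i, mul_smul, Algebra.smul_def]
  · rintro ⟨t, rfl⟩
    funext i
    rw [mwrsPhi_apply, ← Algebra.smul_def, map_smul, Finsupp.smul_apply, smul_eq_mul,
      mul_coeff_zero, coeff_X_zero, zero_mul]
    rfl

/-- `S ⧸ (X) ≃ K ^ n` -/
def mwrsPsi {n : ℕ} (b : Basis (Fin n) K[X] S) :
    (S ⧸ Ideal.span {algebraMap K[X] S X}) ≃ₗ[K] (Fin n → K) :=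
  ((Submodule.Quotient.restrictScalarsEquiv K (Ideal.span {algebraMap K[X] S X})).symm.trans
    (Submodule.quotEquivOfEq _ _ (mwrsPhi_ker b).symm)).trans
    ((mwrsPhi b).quotKerEquivOfSurjective (mwrsPhi_surjective b))

theorem mwrsPsi_mk {n : ℕ} (b : Basis (Fin n) K[X] S) (s : S) :
    mwrsPsi b (Ideal.Quotient.mk _ s) = mwrsPhi b s := rfl

theorem mwrs_rho_of_X {n : ℕ} (b : Basis (Fin n) K[X] S) (f : S) :
    mwrsRho K (algebraMap K[X] S X) f = (Algebra.norm K[X] f).coeff 0 := by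
  unfold mwrsRho
  rw [Algebra.norm_apply, ← LinearMap.det_conj _ (mwrsPsi b)]
  have h : ((mwrsPsi b : _ →ₗ[K] _) ∘ₗ
      Algebra.lmul K _ (Ideal.Quotient.mk (Ideal.span {algebraMap K[X] S X}) f) ∘ₗ
      ((mwrsPsi b).symm : _ →ₗ[K] _)) =
      Matrix.toLin' ((Algebra.leftMulMatrix b f).map (Polynomial.constantCoeff)) := by
    apply LinearMap.ext
    intro y
    obtain ⟨z, rfl⟩ := (mwrsPsi b).surjective y
    obtain ⟨s, rfl⟩ := Ideal.Quotient.mk_surjective z
    have e1 : (mwrsPsi b).symm (mwrsPsi b (Ideal.Quotient.mk _ s)) = Ideal.Quotient.mk _ s :=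
      (mwrsPsi b).symm_apply_apply _
    have e2 : Algebra.lmul K _ (Ideal.Quotient.mk (Ideal.span {algebraMap K[X] S X}) f)
        (Ideal.Quotient.mk _ s) = Ideal.Quotient.mk _ (f * s) := by
      rw [map_mul]; rfl
    rw [LinearMap.comp_apply, LinearMap.comp_apply, LinearEquiv.coe_coe, LinearEquiv.coe_coe,
      e1, e2, mwrsPsi_mk, mwrsPsi_mk, Matrix.toLin'_apply]
    funext i
    have := RingHom.map_mulVec (Polynomial.constantCoeff (R := K)) (Algebra.leftMulMatrix b f)
      (b.repr s) i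
    rw [Algebra.leftMulMatrix_mulVec_repr] at this
    exact this
  rw [h, LinearMap.det_toLin', ← RingHom.mapMatrix_apply, ← RingHom.map_det,
    Algebra.norm_eq_matrix_det b]
  rfl

/-- **(D)**: `ρ(f, X) * lc(N f) = (-1)^(deg N f) * ρ(X, f)` -/
theorem mwrs_sym0 [IsDomain S] {n : ℕ} (b : Basis (Fin n) K[X] S) (f : S) (hf : f ≠ 0) :
    mwrsRho K f (algebraMap K[X] S X) * (Algebra.norm K[X] f).leadingCoeff =
      (-1) ^ (Algebra.norm K[X] f).natDegree * mwrsRho K (algebraMap K[X] S X) f := by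
  rw [mwrs_rho_X b f hf, mwrs_rho_of_X b f]

end D

end Fermat.Agent.MW
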