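import Mathlib

/-!
# Program MW (S17), leaf (RES-SYM): weighted leading term of a determinant

Owner: helper5.  Prefix `mwrs_`.  Mathlib only.
-/

set_option autoImplicit false
set_option linter.style.haveILetI false

noncomputable section

namespace Fermat.Agent.MW

open Polynomial

/-- **weighted leading term of a determinant**: if, for weights `w` and a permutation `σ`,
the entries `M (σ j) j` are the only ones reaching the weighted degree bound, then only the
permutation `σ` contributes to the top coefficient of `det M`. -/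
theorem mwrs_det_weighted {K : Type*} [Field K] {n : ℕ} (M : Matrix (Fin n) (Fin n) K[X])
    (N d : ℕ) (hN : 0 < N) (w : Fin n → ℕ) (σ : Equiv.Perm (Fin n))
    (h1 : ∀ j, M (σ j) j ≠ 0)
    (h2 : ∀ j, N * (M (σ j) j).natDegree + w (σ j) = d + w j)
    (h3 : ∀ i j, i ≠ σ j → M i j ≠ 0 → N * (M i j).natDegree + w i < d + w j) :
    N * M.det.natDegree = n * d ∧
      M.det.leadingCoeff = ((Equiv.Perm.sign σ : ℤˣ) : ℤ) * ∏ j, (M (σ j) j).leadingCoeff ∧
      ∑ j, (M (σ j) j).natDegree = M.det.natDegree := by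
  classical
  have hle : ∀ i j, M i j ≠ 0 → N * (M i j).natDegree + w i ≤ d + w j := by
    intro i j hij
    by_cases hi : i = σ j
    · subst hi; exact (h2 j).le
    · exact (h3 i j hi hij).le
  have hw : ∀ π : Equiv.Perm (Fin n), ∑ j, w (π j) = ∑ j, w j := fun π => Equiv.sum_comp π w
  have hconst : ∑ j : Fin n, (d + w j) = n * d + ∑ j, w j := by
    rw [Finset.sum_add_distrib, Finset.sum_const, Finset.card_univ, Fintype.card_fin, smul_eq_mul]
  -- the degree sums
  have hD : ∀ π : Equiv.Perm (Fin n), (∀ j, M (π j) j ≠ 0) →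
      N * ∑ j, (M (π j) j).natDegree ≤ n * d ∧
        (π ≠ σ → N * ∑ j, (M (π j) j).natDegree < n * d) := by
    intro π hπ
    have hsum : N * ∑ j, (M (π j) j).natDegree + ∑ j, w (π j) =
        ∑ j, (N * (M (π j) j).natDegree + w (π j)) := by
      rw [Finset.sum_add_distrib, Finset.mul_sum]
    constructor
    · have : ∑ j, (N * (M (π j) j).natDegree + w (π j)) ≤ ∑ j : Fin n, (d + w j) :=
        Finset.sum_le_sum fun j _ => hle _ _ (hπ j)
      rw [← hsum, hconst, hw] at this
      omega
    · intro hne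
      obtain ⟨j0, hj0⟩ : ∃ j0, π j0 ≠ σ j0 := by
        by_contra hall
        push Not at hall
        exact hne (Equiv.ext hall)
      have : ∑ j, (N * (M (π j) j).natDegree + w (π j)) < ∑ j : Fin n, (d + w j) :=
        Finset.sum_lt_sum (fun j _ => hle _ _ (hπ j))
          ⟨j0, Finset.mem_univ _, h3 _ _ hj0 (hπ j0)⟩
      rw [← hsum, hconst, hw] at this
      omega
  have hDσ : N * ∑ j, (M (σ j) j).natDegree = n * d := by
    have hsum : N * ∑ j, (M (σ j) j).natDegree + ∑ j, w (σ j) =
        ∑ j, (N * (M (σ j) j).natDegree + w (σ j)) := by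
      rw [Finset.sum_add_distrib, Finset.mul_sum]
    have : ∑ j, (N * (M (σ j) j).natDegree + w (σ j)) = ∑ j : Fin n, (d + w j) :=
      Finset.sum_congr rfl fun j _ => h2 j
    rw [← hsum, hconst, hw] at this
    omega
  set m := ∑ j, (M (σ j) j).natDegree with hm
  have hPσ : (∏ j, M (σ j) j).natDegree = m := natDegree_prod _ _ fun j _ => h1 j
  -- degree bound for every term
  have hdeg : ∀ π : Equiv.Perm (Fin n), (∏ j, M (π j) j).natDegree ≤ m := by
    intro π
    by_cases hπ : ∀ j, M (π j) j ≠ 0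
    · rw [natDegree_prod _ _ fun j _ => hπ j]
      have := (hD π hπ).1
      rw [← hDσ] at this
      exact Nat.le_of_mul_le_mul_left this hN
    · push Not at hπ
      obtain ⟨j, hj⟩ := hπ
      rw [Finset.prod_eq_zero (f := fun j => M (π j) j) (Finset.mem_univ j) hj, natDegree_zero]
      exact Nat.zero_le _
  have hcoeff : ∀ π : Equiv.Perm (Fin n), π ≠ σ → (∏ j, M (π j) j).coeff m = 0 := by
    intro π hne
    by_cases hπ : ∀ j, M (π j) j ≠ 0
    · apply coeff_eq_zero_of_natDegree_lt
      rw [natDegree_prod _ _ fun j _ => hπ j]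
      have := (hD π hπ).2 hne
      rw [← hDσ] at this
      exact Nat.lt_of_mul_lt_mul_left this
    · push Not at hπ
      obtain ⟨j, hj⟩ := hπ
      rw [Finset.prod_eq_zero (f := fun j => M (π j) j) (Finset.mem_univ j) hj, coeff_zero]
  have hdet : M.det = ∑ π : Equiv.Perm (Fin n),
      C (((Equiv.Perm.sign π : ℤˣ) : ℤ) : K) * ∏ j, M (π j) j := by
    rw [Matrix.det_apply']
    refine Finset.sum_congr rfl fun π _ => ?_
    rw [map_intCast]
  have hcm : M.det.coeff m =
      ((Equiv.Perm.sign σ : ℤˣ) : ℤ) * ∏ j, (M (σ j) j).leadingCoeff := by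
    rw [hdet, finsetSum_coeff, Finset.sum_eq_single σ]
    · rw [coeff_C_mul, ← hPσ, coeff_natDegree, leadingCoeff_prod]
    · intro π _ hne
      rw [coeff_C_mul, hcoeff π hne, mul_zero]
    · intro h; exact absurd (Finset.mem_univ σ) h
  have hcm0 : M.det.coeff m ≠ 0 := by
    rw [hcm]
    refine mul_ne_zero ?_ (Finset.prod_ne_zero_iff.2 fun j _ => leadingCoeff_ne_zero.2 (h1 j))
    rcases Int.units_eq_one_or (Equiv.Perm.sign σ) with h | h <;> rw [h] <;> norm_num
  have hnat : M.det.natDegree = m := by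
    apply natDegree_eq_of_le_of_coeff_ne_zero _ hcm0
    rw [hdet]
    refine natDegree_sum_le_of_forall_le _ _ fun π _ => ?_
    exact (natDegree_C_mul_le _ _).trans (hdeg π)
  refine ⟨by rw [hnat, hDσ], ?_, hnat.symm⟩
  rw [leadingCoeff, hnat, hcm]

end Fermat.Agent.MW
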