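import Fermat.Agent.MW.Res.Basis
import Fermat.Agent.MW.Res.Det
import Fermat.Agent.MW.Res.DetW

/-!
# Program MW (S17), leaf (RES-SYM), parts (N) and (SYM)

Owner: helper5.  Prefix `mwrs_` / `Mwrs`.  Mathlib only.

* `mwrs_norm` : for the `K[X]`-algebra structure `X ↦ T` on `B` and `u ≠ 0`, the norm
  `N u ∈ K[X]` has degree `ord u` and leading coefficient `± lc u ^ ord T / lc T ^ ord u`;
* `mwrs_sym` : **Weil reciprocity in resultant form**:
  `ρ(u, T) * lc u ^ ord T = ± ρ(T, u) * lc T ^ ord u`, where `ρ(u, T)` is the determinant of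
  multiplication by `T` on `B ⧸ (u)`.
-/

set_option autoImplicit false
set_option linter.style.haveILetI false

noncomputable section

namespace Fermat.Agent.MW

open Polynomial Module

/-! ### the cyclic shift and the sign of Weil reciprocity -/

/-- `j ↦ (k + j) % n` on `Fin n` -/
def mwrsShiftFun (n k : ℕ) (j : Fin n) : Fin n := ⟨(k + j) % n, Nat.mod_lt _ j.pos⟩

theorem mwrsShiftFun_injective (n k : ℕ) : Function.Injective (mwrsShiftFun n k) := by
  intro j j' h
  have h1 : (k + j) % n = (k + j') % n := congrArg Fin.val h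
  have h' : (j : ℕ) ≡ j' [MOD n] := Nat.ModEq.add_left_cancel' k h1
  apply Fin.ext
  rwa [Nat.ModEq, Nat.mod_eq_of_lt j.isLt, Nat.mod_eq_of_lt j'.isLt] at h'

/-- the cyclic shift by `k` on `Fin n`, as a permutation -/
def mwrsShift (n k : ℕ) : Equiv.Perm (Fin n) :=
  Equiv.ofBijective (mwrsShiftFun n k) (Finite.injective_iff_bijective.1 (mwrsShiftFun_injective n k))

theorem mwrsShift_val (n k : ℕ) (j : Fin n) : ((mwrsShift n k j : Fin n) : ℕ) = (k + j) % n := rfl

/-- the sign in Weil reciprocity `ρ(u,T) lc(u)^n = ε ρ(T,u) lc(T)^m`, `m = ord u`, `n = ord T`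
(it only depends on the two orders; its value is `(-1)^(m n)`, which nobody needs) -/
def mwrsSign (m n : ℕ) : ℤˣ := Equiv.Perm.sign (mwrsShift n m) * (-1) ^ m

section N

variable {K B : Type*} [Field K] [CommRing B] [Algebra K B] [Algebra K[X] B]
  [IsScalarTower K K[X] B] {V : MwrsVal K B}

theorem mwrs_algebraMap_eq_aeval (p : K[X]) :
    algebraMap K[X] B p = aeval (algebraMap K[X] B X) p := by
  have h := aeval_algHom_apply (IsScalarTower.toAlgHom K K[X] B) X p
  rw [aeval_X_left_apply] at h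
  exact h.symm

theorem mwrs_smul_eq (p : K[X]) (b : B) : p • b = aeval (algebraMap K[X] B X) p * b := by
  rw [Algebra.smul_def, mwrs_algebraMap_eq_aeval]

variable (A : MwrsAdapted V (algebraMap K[X] B X)) (hT : 0 < V.ord (algebraMap K[X] B X))

/-- the adapted family is a `K[X]`-basis of `B` -/
def MwrsAdapted.basis : Basis (Fin (V.ord (algebraMap K[X] B X))) K[X] B :=
  Basis.mk (v := A.e)
    (Fintype.linearIndependent_iff.2 fun g hg i => by
      have := A.indep hT g (by simpa only [mwrs_smul_eq] using hg)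
      exact congrFun this i)
    (fun b _ => by
      obtain ⟨p, hp⟩ := A.span hT b
      rw [hp]
      refine Submodule.sum_mem _ fun j _ => ?_
      rw [← mwrs_smul_eq]
      exact Submodule.smul_mem _ _ (Submodule.subset_span ⟨j, rfl⟩))

theorem MwrsAdapted.basis_apply (j : Fin (V.ord (algebraMap K[X] B X))) :
    A.basis hT j = A.e j := by
  unfold MwrsAdapted.basis
  rw [Basis.mk_apply]

/-- the columns of the multiplication matrix -/
theorem mwrs_col (u : B) (hu : u ≠ 0) (j : Fin (V.ord (algebraMap K[X] B X))) :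
    ∃ i0, Algebra.leftMulMatrix (A.basis hT) u i0 j ≠ 0 ∧
      V.ord (algebraMap K[X] B X) * (Algebra.leftMulMatrix (A.basis hT) u i0 j).natDegree +
          V.ord (A.e i0) = V.ord u + V.ord (A.e j) ∧
      (Algebra.leftMulMatrix (A.basis hT) u i0 j).leadingCoeff *
          V.lc (algebraMap K[X] B X) ^ (Algebra.leftMulMatrix (A.basis hT) u i0 j).natDegree =
        V.lc u ∧
      ∀ i, i ≠ i0 → Algebra.leftMulMatrix (A.basis hT) u i j ≠ 0 →
        V.ord (algebraMap K[X] B X) * (Algebra.leftMulMatrix (A.basis hT) u i j).natDegree +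
          V.ord (A.e i) < V.ord u + V.ord (A.e j) := by
  have hsum : ∑ i, aeval (algebraMap K[X] B X) (Algebra.leftMulMatrix (A.basis hT) u i j) * A.e i =
      u * A.e j := by
    have h := (A.basis hT).sum_repr (u * A.e j)
    rw [← h]
    refine Finset.sum_congr rfl fun i _ => ?_
    rw [Algebra.leftMulMatrix_eq_repr_mul, A.basis_apply, A.basis_apply, mwrs_smul_eq]
  have hne : u * A.e j ≠ 0 := by
    have := V.isDomain
    exact mul_ne_zero hu (A.e_ne_zero j)
  have hp : (fun i => Algebra.leftMulMatrix (A.basis hT) u i j) ≠ 0 := by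
    intro h0
    apply hne
    rw [← hsum]
    refine Finset.sum_eq_zero fun i _ => ?_
    rw [congrFun h0 i, Pi.zero_apply, map_zero, zero_mul]
  obtain ⟨i0, h1, h2, h3, h4⟩ := A.dom hT _ hp
  rw [hsum] at h2 h3
  rw [V.ord_mul _ _ hu (A.e_ne_zero j)] at h2
  rw [V.lc_mul, A.lc_e, mul_one] at h3
  refine ⟨i0, h1, h2.symm, h3.symm, ?_⟩
  intro i hi hpi
  rw [h2]
  exact h4 i hi hpi

include A hT in
/-- **(N)**: degree and leading coefficient of the norm to `K[X]`, with the explicit sign -/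
theorem mwrs_norm' (u : B) (hu : u ≠ 0) :
    (Algebra.norm K[X] u).natDegree = V.ord u ∧
      (Algebra.norm K[X] u).leadingCoeff * V.lc (algebraMap K[X] B X) ^ V.ord u =
        (((Equiv.Perm.sign (mwrsShift (V.ord (algebraMap K[X] B X)) (V.ord u)) : ℤˣ) : ℤ) : K) *
          V.lc u ^ V.ord (algebraMap K[X] B X) := by
  classical
  choose σf hσ1 hσ2 hσ3 hσ4 using mwrs_col A hT u hu
  have hval : ∀ j, (σf j : ℕ) = (V.ord u + j) % V.ord (algebraMap K[X] B X) := by
    intro j
    have h := congrArg (· % V.ord (algebraMap K[X] B X)) (hσ2 j)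
    simp only [Nat.mul_add_mod] at h
    rw [A.ord_mod] at h
    rw [h]
    have hmodeq : V.ord (A.e j) ≡ j [MOD V.ord (algebraMap K[X] B X)] := by
      rw [Nat.ModEq, A.ord_mod, Nat.mod_eq_of_lt j.isLt]
    exact Nat.ModEq.add_left (V.ord u) hmodeq
  have hσapp : ∀ j, mwrsShift (V.ord (algebraMap K[X] B X)) (V.ord u) j = σf j := by
    intro j
    apply Fin.ext
    rw [mwrsShift_val, hval]
  obtain ⟨hdeg, hlc, hsum⟩ := mwrs_det_weighted (Algebra.leftMulMatrix (A.basis hT) u)
    (V.ord (algebraMap K[X] B X)) (V.ord u) hT (fun i => V.ord (A.e i))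
    (mwrsShift (V.ord (algebraMap K[X] B X)) (V.ord u))
    (fun j => by rw [hσapp]; exact hσ1 j) (fun j => by rw [hσapp]; exact hσ2 j)
    (fun i j hi hij => hσ4 j i (by rwa [hσapp] at hi) hij)
  rw [← Algebra.norm_eq_matrix_det (A.basis hT) u] at hdeg hlc hsum
  have hnat : (Algebra.norm K[X] u).natDegree = V.ord u := Nat.eq_of_mul_eq_mul_left hT hdeg
  refine ⟨hnat, ?_⟩
  rw [hlc, mul_assoc]
  congr 1
  have hpow : V.lc (algebraMap K[X] B X) ^ V.ord u =
      ∏ j, V.lc (algebraMap K[X] B X) ^ (Algebra.leftMulMatrix (A.basis hT) u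
          (mwrsShift (V.ord (algebraMap K[X] B X)) (V.ord u) j) j).natDegree := by
    rw [Finset.prod_pow_eq_pow_sum, hsum, hnat]
  rw [hpow, ← Finset.prod_mul_distrib]
  have hprod : ∀ j ∈ (Finset.univ : Finset (Fin (V.ord (algebraMap K[X] B X)))),
      (Algebra.leftMulMatrix (A.basis hT) u
          (mwrsShift (V.ord (algebraMap K[X] B X)) (V.ord u) j) j).leadingCoeff *
        V.lc (algebraMap K[X] B X) ^ (Algebra.leftMulMatrix (A.basis hT) u
          (mwrsShift (V.ord (algebraMap K[X] B X)) (V.ord u) j) j).natDegree =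
      V.lc u := fun j _ => by rw [hσapp]; exact hσ3 j
  rw [Finset.prod_congr rfl hprod, Finset.prod_const, Finset.card_univ, Fintype.card_fin]

include A hT in
/-- **(N)**: degree and leading coefficient of the norm to `K[X]` -/
theorem mwrs_norm (u : B) (hu : u ≠ 0) :
    ∃ ε : ℤˣ, (Algebra.norm K[X] u).natDegree = V.ord u ∧
      (Algebra.norm K[X] u).leadingCoeff * V.lc (algebraMap K[X] B X) ^ V.ord u =
        ((ε : ℤ) : K) * V.lc u ^ V.ord (algebraMap K[X] B X) :=
  ⟨_, mwrs_norm' A hT u hu⟩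

include A hT in
theorem mwrs_sym_aux (u : B) (hu : u ≠ 0) :
    mwrsRho K u (algebraMap K[X] B X) * V.lc u ^ V.ord (algebraMap K[X] B X) =
      (((mwrsSign (V.ord u) (V.ord (algebraMap K[X] B X)) : ℤˣ) : ℤ) : K) *
        (mwrsRho K (algebraMap K[X] B X) u * V.lc (algebraMap K[X] B X) ^ V.ord u) := by
  have := V.isDomain
  obtain ⟨hnat, hlc⟩ := mwrs_norm' A hT u hu
  have h0 := mwrs_sym0 (A.basis hT) u hu
  rw [hnat] at h0
  set ε : ℤˣ := Equiv.Perm.sign (mwrsShift (V.ord (algebraMap K[X] B X)) (V.ord u)) with hεdef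
  have hε : ((ε : ℤ) : K) * ((ε : ℤ) : K) = 1 := by
    rcases Int.units_eq_one_or ε with h | h <;> rw [h] <;> norm_num
  have hsign : (((mwrsSign (V.ord u) (V.ord (algebraMap K[X] B X)) : ℤˣ) : ℤ) : K) =
      ((ε : ℤ) : K) * (-1) ^ V.ord u := by
    unfold mwrsSign
    rw [← hεdef]
    push_cast
    ring
  rw [hsign]
  calc mwrsRho K u (algebraMap K[X] B X) * V.lc u ^ V.ord (algebraMap K[X] B X)
      = mwrsRho K u (algebraMap K[X] B X) *
          (((ε : ℤ) : K) * (((ε : ℤ) : K) * V.lc u ^ V.ord (algebraMap K[X] B X))) := by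
        rw [← mul_assoc ((ε : ℤ) : K), hε, one_mul]
    _ = mwrsRho K u (algebraMap K[X] B X) * (((ε : ℤ) : K) *
          ((Algebra.norm K[X] u).leadingCoeff * V.lc (algebraMap K[X] B X) ^ V.ord u)) := by
        rw [hlc]
    _ = ((ε : ℤ) : K) * ((mwrsRho K u (algebraMap K[X] B X) *
          (Algebra.norm K[X] u).leadingCoeff) * V.lc (algebraMap K[X] B X) ^ V.ord u) := by
        ring
    _ = ((ε : ℤ) : K) * (((-1) ^ V.ord u * mwrsRho K (algebraMap K[X] B X) u) *
          V.lc (algebraMap K[X] B X) ^ V.ord u) := by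
        rw [h0]
    _ = _ := by ring

include A hT in
/-- "number of zeros = number of poles" -/
theorem mwrs_finrank_aux (u : B) (hu : u ≠ 0) :
    Module.finrank K (B ⧸ Ideal.span {u}) = V.ord u := by
  have := V.isDomain
  obtain ⟨ε, hnat, -⟩ := mwrs_norm A hT u hu
  rw [← hnat]
  exact finrank_quotient_span_eq_natDegree_norm (A.basis hT) hu

include A hT in
theorem mwrs_finite_aux (u : B) (hu : u ≠ 0) : Module.Finite K (B ⧸ Ideal.span {u}) := by
  have := V.isDomain
  have hI : Ideal.span {u} ≠ (⊥ : Ideal B) := Ideal.span_singleton_eq_bot.not.2 hu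
  have hfin : ∀ i, Module.Finite K
      (K[X] ⧸ Ideal.span {(Ideal.span {u}).smithCoeffs (A.basis hT) hI i}) := fun i =>
    Module.Finite.of_basis
      (AdjoinRoot.powerBasis (Ideal.smithCoeffs_ne_zero (A.basis hT) _ hI i)).basis
  exact Module.Finite.equiv
    ((Ideal.quotientEquivPiSpan (Ideal.span {u}) (A.basis hT) hI).restrictScalars K).symm

end N

section Final

variable {K B : Type*} [Field K] [CommRing B] [Algebra K B] (V : MwrsVal K B)

/-- **Weil reciprocity in resultant form** for a ring with one place at infinity, with the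
explicit sign `mwrsSign (ord u) (ord T)` (which only depends on the two orders):
`ρ(u, T) * lc u ^ ord T = ± ρ(T, u) * lc T ^ ord u`, where `ρ(u, T)` is the determinant of
multiplication by `T` on the `K`-space `B ⧸ (u)`. -/
theorem mwrs_sym' (u T : B) (hu : u ≠ 0) (hT : 0 < V.ord T)
    (hres : ∀ j : Fin (V.ord T), ∃ b : B, b ≠ 0 ∧ V.ord b % V.ord T = j) :
    mwrsRho K u T * V.lc u ^ V.ord T =
      (((mwrsSign (V.ord u) (V.ord T) : ℤˣ) : ℤ) : K) * (mwrsRho K T u * V.lc T ^ V.ord u) := by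
  letI : Algebra K[X] B := (aeval T).toRingHom.toAlgebra
  haveI : IsScalarTower K K[X] B := IsScalarTower.of_algebraMap_eq fun c => (aeval_C T c).symm
  have hX : algebraMap K[X] B X = T := aeval_X T
  have hT' : 0 < V.ord (algebraMap K[X] B X) := by rw [hX]; exact hT
  obtain ⟨A⟩ := mwrs_exists_adapted V (algebraMap K[X] B X) (by rw [hX]; exact hres)
  have key := mwrs_sym_aux A hT' u hu
  rw [hX] at key
  exact key

/-- **Weil reciprocity in resultant form**, existential sign -/
theorem mwrs_sym (u T : B) (hu : u ≠ 0) (hT : 0 < V.ord T)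
    (hres : ∀ j : Fin (V.ord T), ∃ b : B, b ≠ 0 ∧ V.ord b % V.ord T = j) :
    ∃ ε : ℤˣ, mwrsRho K u T * V.lc u ^ V.ord T =
      ((ε : ℤ) : K) * (mwrsRho K T u * V.lc T ^ V.ord u) :=
  ⟨_, mwrs_sym' V u T hu hT hres⟩

/-- the dimension of `B ⧸ (u)` is `ord u` -/
theorem mwrs_finrank (u T : B) (hu : u ≠ 0) (hT : 0 < V.ord T)
    (hres : ∀ j : Fin (V.ord T), ∃ b : B, b ≠ 0 ∧ V.ord b % V.ord T = j) :
    Module.finrank K (B ⧸ Ideal.span {u}) = V.ord u := by
  letI : Algebra K[X] B := (aeval T).toRingHom.toAlgebra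
  haveI : IsScalarTower K K[X] B := IsScalarTower.of_algebraMap_eq fun c => (aeval_C T c).symm
  have hX : algebraMap K[X] B X = T := aeval_X T
  have hT' : 0 < V.ord (algebraMap K[X] B X) := by rw [hX]; exact hT
  obtain ⟨A⟩ := mwrs_exists_adapted V (algebraMap K[X] B X) (by rw [hX]; exact hres)
  exact mwrs_finrank_aux A hT' u hu

theorem mwrs_finite (u T : B) (hu : u ≠ 0) (hT : 0 < V.ord T)
    (hres : ∀ j : Fin (V.ord T), ∃ b : B, b ≠ 0 ∧ V.ord b % V.ord T = j) :
    Module.Finite K (B ⧸ Ideal.span {u}) := by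
  letI : Algebra K[X] B := (aeval T).toRingHom.toAlgebra
  haveI : IsScalarTower K K[X] B := IsScalarTower.of_algebraMap_eq fun c => (aeval_C T c).symm
  have hX : algebraMap K[X] B X = T := aeval_X T
  have hT' : 0 < V.ord (algebraMap K[X] B X) := by rw [hX]; exact hT
  obtain ⟨A⟩ := mwrs_exists_adapted V (algebraMap K[X] B X) (by rw [hX]; exact hres)
  exact mwrs_finite_aux A hT' u hu

/-- the residue classes mod `ord T` are all hit as soon as all large orders occur -/
theorem mwrs_res_of_gap (T : B) (hT : 0 < V.ord T)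
    (hgap : ∃ m0 : ℕ, ∀ m, m0 ≤ m → ∃ b : B, V.ord b = m) :
    ∀ j : Fin (V.ord T), ∃ b : B, b ≠ 0 ∧ V.ord b % V.ord T = j := by
  obtain ⟨m0, hm0⟩ := hgap
  intro j
  obtain ⟨b, hb⟩ := hm0 ((j : ℕ) + V.ord T * (m0 + 1)) (by nlinarith)
  refine ⟨b, V.ne_zero_of_ord_pos (by rw [hb]; positivity), ?_⟩
  rw [hb, Nat.add_mul_mod_self_left, Nat.mod_eq_of_lt j.isLt]

end Final

end Fermat.Agent.MW
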