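import Mathlib

/-!
# Program MW (S17), leaf (RES-SYM), part (W): rings with one place at infinity

Owner: helper5.  Prefix `mwrs_` / `Mwrs`.  Mathlib only.

`MwrsVal K B` : a `K`-algebra `B` with a "pole order at infinity" `ord : B → ℕ` and an exactly
multiplicative "leading coefficient" `lc : B → K` (model: functions on a complete curve that are
regular off one `K`-rational point `P₀`; `ord b = - v_{P₀}(b)`, `lc b` = the residue of
`b * π ^ ord b` for a fixed uniformiser `π`).

For `T` with `0 < ord T` and an adapted family `e` (one element of minimal `ord` in each residue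
class mod `ord T`), `B` is free over `K[T]` with basis `e`, and the `ord` of `∑ pⱼ(T) eⱼ` is
the maximum of the `ord T * deg pⱼ + ord eⱼ` (`mwrs_dom`).
-/

set_option autoImplicit false
set_option linter.style.haveILetI false

noncomputable section

namespace Fermat.Agent.MW

open Polynomial

/-- a `K`-algebra with one place at infinity: pole order and leading coefficient -/
structure MwrsVal (K B : Type*) [Field K] [CommRing B] [Algebra K B] where
  /-- the pole order at infinity -/
  ord : B → ℕ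
  /-- the leading coefficient at infinity -/
  lc : B → K
  lc_eq_zero : ∀ b, lc b = 0 ↔ b = 0
  ord_mul : ∀ a b, a ≠ 0 → b ≠ 0 → ord (a * b) = ord a + ord b
  lc_mul : ∀ a b, lc (a * b) = lc a * lc b
  ord_algebraMap : ∀ c : K, ord (algebraMap K B c) = 0
  lc_algebraMap : ∀ c : K, lc (algebraMap K B c) = c
  ord_add_le : ∀ a b, ord (a + b) ≤ max (ord a) (ord b)
  ord_sub_lt : ∀ a b, a ≠ b → ord a = ord b → lc a = lc b → ord (a - b) < ord a

variable {K B : Type*} [Field K] [CommRing B] [Algebra K B] (V : MwrsVal K B)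

namespace MwrsVal

include V

theorem lc_ne_zero {b : B} (hb : b ≠ 0) : V.lc b ≠ 0 := fun h => hb ((V.lc_eq_zero b).1 h)

theorem ne_zero_of_lc {b : B} (hb : V.lc b ≠ 0) : b ≠ 0 := fun h => hb ((V.lc_eq_zero b).2 h)

theorem lc_zero : V.lc 0 = 0 := (V.lc_eq_zero 0).2 rfl

theorem ord_zero : V.ord 0 = 0 := by
  have := V.ord_algebraMap 0
  rwa [map_zero] at this

theorem lc_one : V.lc 1 = 1 := by
  have := V.lc_algebraMap 1
  rwa [map_one] at this

theorem nontrivial : Nontrivial B :=
  ⟨⟨1, 0, V.ne_zero_of_lc (by rw [V.lc_one]; exact one_ne_zero)⟩⟩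

theorem isDomain : IsDomain B := by
  have := V.nontrivial
  have : NoZeroDivisors B := ⟨by
    intro a b hab
    have h : V.lc a * V.lc b = 0 := by rw [← V.lc_mul, hab, V.lc_zero]
    rcases mul_eq_zero.1 h with h | h
    · exact Or.inl ((V.lc_eq_zero a).1 h)
    · exact Or.inr ((V.lc_eq_zero b).1 h)⟩
  exact NoZeroDivisors.to_isDomain B

theorem algebraMap_ne_zero {c : K} (hc : c ≠ 0) : algebraMap K B c ≠ 0 :=
  V.ne_zero_of_lc (by rw [V.lc_algebraMap]; exact hc)

theorem ord_smul {c : K} (hc : c ≠ 0) (a : B) : V.ord (c • a) = V.ord a := by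
  by_cases ha : a = 0
  · rw [ha, smul_zero]
  · rw [Algebra.smul_def, V.ord_mul _ _ (V.algebraMap_ne_zero hc) ha, V.ord_algebraMap, zero_add]

theorem lc_smul (c : K) (a : B) : V.lc (c • a) = c * V.lc a := by
  rw [Algebra.smul_def, V.lc_mul, V.lc_algebraMap]

theorem smul_ne_zero {c : K} (hc : c ≠ 0) {a : B} (ha : a ≠ 0) : c • a ≠ 0 :=
  V.ne_zero_of_lc (by rw [V.lc_smul]; exact mul_ne_zero hc (V.lc_ne_zero ha))

theorem ord_neg (a : B) : V.ord (-a) = V.ord a := by
  have := V.ord_smul (c := (-1 : K)) (by norm_num) a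
  rwa [neg_one_smul] at this

theorem lc_neg (a : B) : V.lc (-a) = - V.lc a := by
  have := V.lc_smul (-1 : K) a
  rwa [neg_one_smul, neg_one_mul] at this

theorem pow_ne_zero' {a : B} (ha : a ≠ 0) (k : ℕ) : a ^ k ≠ 0 := by
  have := V.isDomain
  exact pow_ne_zero k ha

theorem ord_pow {a : B} (ha : a ≠ 0) (k : ℕ) : V.ord (a ^ k) = k * V.ord a := by
  induction k with
  | zero =>
    rw [pow_zero, zero_mul]
    have := V.ord_algebraMap 1
    rwa [map_one] at this
  | succ k ih =>
    rw [pow_succ, V.ord_mul _ _ (V.pow_ne_zero' ha k) ha, ih]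
    ring

theorem lc_pow (a : B) (k : ℕ) : V.lc (a ^ k) = V.lc a ^ k := by
  induction k with
  | zero => rw [pow_zero, pow_zero, V.lc_one]
  | succ k ih => rw [pow_succ, V.lc_mul, ih, pow_succ]

/-- `r` is negligible with respect to order `m` -/
def Small (m : ℕ) (r : B) : Prop := r = 0 ∨ V.ord r < m

theorem small_add {m : ℕ} {x y : B} (hx : V.Small m x) (hy : V.Small m y) :
    V.Small m (x + y) := by
  rcases hx with rfl | hx
  · rwa [zero_add]
  rcases hy with rfl | hy
  · rw [add_zero]; exact Or.inr hx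
  exact Or.inr (lt_of_le_of_lt (V.ord_add_le x y) (max_lt hx hy))

theorem small_sum {ι : Type*} {m : ℕ} (s : Finset ι) (t : ι → B)
    (h : ∀ i ∈ s, V.Small m (t i)) : V.Small m (∑ i ∈ s, t i) := by
  classical
  induction s using Finset.induction_on with
  | empty => exact Or.inl Finset.sum_empty
  | insert a s ha ih =>
    rw [Finset.sum_insert ha]
    exact V.small_add (h a (Finset.mem_insert_self a s))
      (ih fun i hi => h i (Finset.mem_insert_of_mem hi))

theorem ord_add_small {a r : B} (hr : V.Small (V.ord a) r) : V.ord (a + r) = V.ord a := by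
  rcases hr with rfl | hr
  · rw [add_zero]
  refine le_antisymm ((V.ord_add_le a r).trans (max_le le_rfl hr.le)) ?_
  by_contra hlt
  rw [not_le] at hlt
  have h1 : V.ord a ≤ max (V.ord (a + r)) (V.ord (-r)) := by
    have := V.ord_add_le (a + r) (-r)
    rwa [add_neg_cancel_right] at this
  rw [V.ord_neg] at h1
  exact absurd h1 (not_le.2 (max_lt hlt hr))

theorem ne_zero_of_ord_pos {a : B} (h : 0 < V.ord a) : a ≠ 0 := by
  rintro rfl
  rw [V.ord_zero] at h
  exact lt_irrefl _ h

theorem add_small_ne_zero {a r : B} (ha : a ≠ 0) (hr : V.Small (V.ord a) r) : a + r ≠ 0 := by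
  rcases hr with rfl | hr
  · rwa [add_zero]
  intro h
  have : a = -r := eq_neg_of_add_eq_zero_left h
  rw [this, V.ord_neg] at hr
  exact lt_irrefl _ hr

theorem lc_add_small {a r : B} (ha : a ≠ 0) (hr : V.Small (V.ord a) r) :
    V.lc (a + r) = V.lc a := by
  have hb : a + r ≠ 0 := V.add_small_ne_zero ha hr
  have hob : V.ord (a + r) = V.ord a := V.ord_add_small hr
  have hla : V.lc a ≠ 0 := V.lc_ne_zero ha
  set c : K := V.lc (a + r) / V.lc a with hc
  have hc0 : c ≠ 0 := div_ne_zero (V.lc_ne_zero hb) hla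
  have hcl : c * V.lc a = V.lc (a + r) := by rw [hc]; field_simp
  by_contra hne
  have hc1 : c ≠ 1 := by
    intro h1
    rw [h1, one_mul] at hcl
    exact hne hcl.symm
  have h1c : (1 - c) ≠ 0 := sub_ne_zero.2 (Ne.symm hc1)
  -- the element `(1 - c) • a + r` has order `ord a`
  have hord : V.ord ((1 - c) • a + r) = V.ord a := by
    have hr' : V.Small (V.ord ((1 - c) • a)) r := by rw [V.ord_smul h1c]; exact hr
    rw [V.ord_add_small hr', V.ord_smul h1c]
  have hEq : (a + r) - c • a = (1 - c) • a + r := by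
    rw [sub_smul, one_smul]; ring
  by_cases hbe : a + r = c • a
  · -- then `(1 - c) • a + r = 0`
    have h0 : (1 - c) • a + r = 0 := by rw [← hEq, hbe, sub_self]
    have hr' : V.Small (V.ord ((1 - c) • a)) r := by rw [V.ord_smul h1c]; exact hr
    exact V.add_small_ne_zero (V.smul_ne_zero h1c ha) hr' h0
  · have hlt := V.ord_sub_lt (a + r) (c • a) hbe (by rw [hob, V.ord_smul hc0])
      (by rw [V.lc_smul, hcl])
    rw [hEq, hord, hob] at hlt
    exact lt_irrefl _ hlt

/-- a sum with one dominant term -/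
theorem sum_dom {ι : Type*} (s : Finset ι) (t : ι → B) (i0 : ι) (hi0 : i0 ∈ s)
    (h0 : t i0 ≠ 0) (h : ∀ i ∈ s, i ≠ i0 → V.Small (V.ord (t i0)) (t i)) :
    V.ord (∑ i ∈ s, t i) = V.ord (t i0) ∧ V.lc (∑ i ∈ s, t i) = V.lc (t i0) := by
  classical
  rw [← Finset.add_sum_erase s t hi0]
  have hs : V.Small (V.ord (t i0)) (∑ i ∈ s.erase i0, t i) :=
    V.small_sum _ _ fun i hi => h i (Finset.mem_of_mem_erase hi) (Finset.ne_of_mem_erase hi)
  exact ⟨V.ord_add_small hs, V.lc_add_small h0 hs⟩

/-- order and leading coefficient of a polynomial in `T` -/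
theorem ord_lc_aeval {T : B} (hT : 0 < V.ord T) {p : K[X]} (hp : p ≠ 0) :
    V.ord (aeval T p) = V.ord T * p.natDegree ∧
      V.lc (aeval T p) = p.leadingCoeff * V.lc T ^ p.natDegree := by
  have hT0 : T ≠ 0 := V.ne_zero_of_ord_pos hT
  have hlc : p.coeff p.natDegree ≠ 0 := leadingCoeff_ne_zero.2 hp
  rw [aeval_eq_sum_range]
  have key := V.sum_dom (Finset.range (p.natDegree + 1)) (fun k => p.coeff k • T ^ k) p.natDegree
    (Finset.self_mem_range_succ _) (V.smul_ne_zero hlc (V.pow_ne_zero' hT0 _)) ?_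
  · rw [key.1, key.2, V.ord_smul hlc, V.ord_pow hT0, V.lc_smul, V.lc_pow, mul_comm]
    exact ⟨rfl, rfl⟩
  · intro k hk hkne
    have hklt : k < p.natDegree :=
      lt_of_le_of_ne (Nat.lt_succ_iff.1 (Finset.mem_range.1 hk)) hkne
    by_cases hck : p.coeff k = 0
    · exact Or.inl (by simp only [hck, zero_smul])
    · refine Or.inr ?_
      show V.ord (p.coeff k • T ^ k) < V.ord (p.coeff p.natDegree • T ^ p.natDegree)
      rw [V.ord_smul hck, V.ord_smul hlc, V.ord_pow hT0, V.ord_pow hT0]
      exact Nat.mul_lt_mul_of_pos_right hklt hT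

end MwrsVal

end Fermat.Agent.MW
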