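import Mathlib
import Fermat.Agent.MW.Res.CRT

/-!
# Program MW (S17), heights half, leaf (CRT), second file: the zero cycle as a multiset of points
(prefix `mwcr_`, continuation of `MW/Res/CRT.lean`)

`B` a Dedekind domain, a `K`-algebra all of whose residue fields are `K`.  For an ideal `J ≠ 0` the
zero cycle `mwcrZeros K hres J : Multiset (B →ₐ[K] K)` is the multiset of the `K`-points of `B` lying
on `J`, with multiplicities.

* `mwcr_mem_zeros_iff` – `q ∈ Z(J) ↔ J ≤ ker q` (`↔ q u = 0` for `J = (u)`);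
* `mwcr_finrank_eq_card_zeros` – `dim_K B ⧸ J = card Z(J)`;
* `mwcr_det_eq_zeros_prod` – `det (T | B ⧸ J) = ∏_{q ∈ Z(J)} q T`;
* `mwcrZeros_mul`, `mwcr_det_mul` – additivity of the zero cycle, multiplicativity of the determinant
  in `J`;
* `mwcr_count_zeros` – the multiplicity of `q` in `Z(J)` is `multiplicity (ker q) J`.
-/

set_option autoImplicit false
set_option linter.unusedSectionVars false

noncomputable section

namespace Fermat.Agent.MW

open Module UniqueFactorizationMonoid IsDedekindDomain HeightOneSpectrum Fermat.Agent.S20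

section Ker

variable {K B : Type*} [Field K] [CommRing B] [Algebra K B]

/-- a `K`-point is determined by its kernel -/
theorem mwcr_ker_injective :
    Function.Injective (fun q : B →ₐ[K] K => RingHom.ker (q : B →+* K)) := by
  intro q q' h
  ext T
  have h1 := mwcrVal_eq_of_ker q (RingHom.ker (q : B →+* K)) rfl T
  have h2 := mwcrVal_eq_of_ker q' (RingHom.ker (q : B →+* K)) h T
  exact h1.symm.trans h2

theorem mwcr_ker_isMaximal (q : B →ₐ[K] K) : (RingHom.ker (q : B →+* K)).IsMaximal :=
  RingHom.ker_isMaximal_of_surjective (q : B →+* K) fun c =>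
    ⟨algebraMap K B c, by simp⟩

end Ker

section Zeros

variable {B : Type*} [CommRing B] [IsDedekindDomain B] (K : Type*) [Field K] [Algebra K B]

theorem mwcr_isMaximal_of_mem_normalizedFactors {J P : Ideal B}
    (hP : P ∈ normalizedFactors J) : P.IsMaximal := by
  have hprime : Prime P := prime_of_normalized_factor P hP
  exact (Ideal.isPrime_of_prime hprime).isMaximal hprime.ne_zero

/-- the zero cycle of `J`: the multiset of the `K`-points of `B` on `J`, with multiplicities -/
def mwcrZeros (hres : ∀ P : Ideal B, P.IsMaximal → Function.Surjective (algebraMap K (B ⧸ P)))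
    (J : Ideal B) : Multiset (B →ₐ[K] K) :=
  Multiset.pmap (p := fun P : Ideal B => P.IsMaximal)
    (fun (P : Ideal B) (hP : P.IsMaximal) =>
      (mwcrChar P (Ideal.IsMaximal.ne_top hP) (hres P hP) : B →ₐ[K] K))
    (normalizedFactors J)
    (fun (P : Ideal B) (hP : P ∈ normalizedFactors J) =>
      mwcr_isMaximal_of_mem_normalizedFactors (J := J) hP)

/-- multiplicativity of the determinant in `T`: `ρ(u, S T) = ρ(u, S) ρ(u, T)` -/
theorem mwcr_det_mul_right (J : Ideal B) (S T : B) :
    LinearMap.det (mwcrMul K J (S * T)) =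
      LinearMap.det (mwcrMul K J S) * LinearMap.det (mwcrMul K J T) := by
  rw [← map_mul]
  congr 1
  ext x
  obtain ⟨c, rfl⟩ := Ideal.Quotient.mk_surjective x
  rw [Module.End.mul_apply, mwcrMul_apply, mwcrMul_apply, mwcrMul_apply, mul_assoc]

theorem mwcr_det_algebraMap (J : Ideal B) (c : K) :
    LinearMap.det (mwcrMul K J (algebraMap K B c)) = c ^ finrank K (B ⧸ J) := by
  have : mwcrMul K J (algebraMap K B c) = c • LinearMap.id := by
    ext x
    obtain ⟨d, rfl⟩ := Ideal.Quotient.mk_surjective x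
    rw [mwcrMul_apply, LinearMap.smul_apply, LinearMap.id_apply, Algebra.smul_def, map_mul]
    rfl
  rw [this, LinearMap.det_smul, LinearMap.det_id, mul_one]

variable (hres : ∀ P : Ideal B, P.IsMaximal → Function.Surjective (algebraMap K (B ⧸ P)))
include hres

theorem mwcrZeros_card (J : Ideal B) :
    Multiset.card (mwcrZeros K hres J) = Multiset.card (normalizedFactors J) := by
  rw [mwcrZeros, Multiset.card_pmap]

theorem mwcrZeros_map_ker (J : Ideal B) :
    (mwcrZeros K hres J).map (fun q : B →ₐ[K] K => RingHom.ker (q : B →+* K)) = normalizedFactors J := by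
  rw [mwcrZeros, Multiset.map_pmap]
  have : ∀ (P : Ideal B) (hP : P.IsMaximal),
      RingHom.ker ((mwcrChar P hP.ne_top (hres P hP) : B →ₐ[K] K) : B →+* K) = P :=
    fun P hP => mwcrChar_ker P hP.ne_top (hres P hP)
  rw [Multiset.pmap_congr (q := fun P => P.IsMaximal) (g := fun P _ => P)
    (H₂ := fun _ hP => mwcr_isMaximal_of_mem_normalizedFactors hP) _
    (fun P _ h1 _ => this P h1)]
  rw [Multiset.pmap_eq_map, Multiset.map_id']

theorem mwcrZeros_map_apply (J : Ideal B) (T : B) :
    (mwcrZeros K hres J).map (fun q : B →ₐ[K] K => q T) =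
      (normalizedFactors J).map (fun P => mwcrVal K P T) := by
  rw [← mwcrZeros_map_ker K hres J, Multiset.map_map]
  refine Multiset.map_congr rfl fun q _ => ?_
  exact (mwcrVal_eq_of_ker q _ rfl T).symm

/-- `q ∈ Z(J) ↔ J ≤ ker q` -/
theorem mwcr_mem_zeros_iff {J : Ideal B} (hJ : J ≠ 0) (q : B →ₐ[K] K) :
    q ∈ mwcrZeros K hres J ↔ J ≤ RingHom.ker (q : B →+* K) := by
  have hmax := mwcr_ker_isMaximal q
  constructor
  · intro hq
    have : RingHom.ker (q : B →+* K) ∈ normalizedFactors J := by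
      rw [← mwcrZeros_map_ker K hres J]
      exact Multiset.mem_map_of_mem _ hq
    exact Ideal.le_of_dvd (dvd_of_mem_normalizedFactors this)
  · intro hle
    have hne : RingHom.ker (q : B →+* K) ≠ ⊥ := by
      intro h0
      rw [h0, le_bot_iff] at hle
      exact hJ hle
    have hprime : Prime (RingHom.ker (q : B →+* K)) :=
      Ideal.prime_of_isPrime hne hmax.isPrime
    have hmem : RingHom.ker (q : B →+* K) ∈ normalizedFactors J :=
      (mem_normalizedFactors_iff' hJ).2
        ⟨hprime.irreducible, normalize_eq _, Ideal.dvd_iff_le.mpr hle⟩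
    rw [← mwcrZeros_map_ker K hres J, Multiset.mem_map] at hmem
    obtain ⟨q', hq', hker⟩ := hmem
    have : q' = q := mwcr_ker_injective hker
    rwa [← this]

/-- `q ∈ Z((u)) ↔ q u = 0` -/
theorem mwcr_mem_zeros_span_iff {u : B} (hu : u ≠ 0) (q : B →ₐ[K] K) :
    q ∈ mwcrZeros K hres (Ideal.span {u}) ↔ q u = 0 := by
  have hsr : Ideal.span {u} ≠ 0 := Submodule.span_singleton_eq_bot.mp.mt hu
  rw [mwcr_mem_zeros_iff K hres hsr, Ideal.span_singleton_le_iff_mem, RingHom.mem_ker]
  rfl

/-- `dim_K B ⧸ J = card Z(J)` -/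
theorem mwcr_finrank_eq_card_zeros (J : Ideal B) (hJ : J ≠ 0) :
    Module.Finite K (B ⧸ J) ∧ finrank K (B ⧸ J) = Multiset.card (mwcrZeros K hres J) := by
  rw [mwcrZeros_card]
  exact ffdim_quotient_eq_card_normalizedFactors K hres J hJ

/-- **the product formula over the zero cycle**: `det (T | B ⧸ J) = ∏_{q ∈ Z(J)} q T` -/
theorem mwcr_det_eq_zeros_prod (J : Ideal B) (hJ : J ≠ 0) (T : B) :
    LinearMap.det (mwcrMul K J T) = ((mwcrZeros K hres J).map (fun q : B →ₐ[K] K => q T)).prod := by
  rw [mwcrZeros_map_apply]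
  exact (mwcr_det_eq_multiset_prod K hres J hJ T).2

/-- additivity of the zero cycle -/
theorem mwcrZeros_mul {I J : Ideal B} (hI : I ≠ 0) (hJ : J ≠ 0) :
    mwcrZeros K hres (I * J) = mwcrZeros K hres I + mwcrZeros K hres J := by
  apply Multiset.map_injective (mwcr_ker_injective (K := K) (B := B))
  rw [Multiset.map_add, mwcrZeros_map_ker, mwcrZeros_map_ker, mwcrZeros_map_ker,
    normalizedFactors_mul hI hJ]

theorem mwcrZeros_span_mul {u v : B} (hu : u ≠ 0) (hv : v ≠ 0) :
    mwcrZeros K hres (Ideal.span {u * v}) =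
      mwcrZeros K hres (Ideal.span {u}) + mwcrZeros K hres (Ideal.span {v}) := by
  rw [← Ideal.span_singleton_mul_span_singleton]
  exact mwcrZeros_mul K hres (Submodule.span_singleton_eq_bot.mp.mt hu)
    (Submodule.span_singleton_eq_bot.mp.mt hv)

theorem mwcrZeros_top : mwcrZeros K hres (⊤ : Ideal B) = 0 := by
  apply Multiset.card_eq_zero.mp
  rw [mwcrZeros_card, ← Ideal.one_eq_top, normalizedFactors_one, Multiset.card_zero]

theorem mwcrZeros_span_unit {u : B} (hu : IsUnit u) :
    mwcrZeros K hres (Ideal.span {u}) = 0 := by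
  rw [Ideal.span_singleton_eq_top.mpr hu]
  exact mwcrZeros_top K hres

/-- multiplicativity of the determinant in the ideal -/
theorem mwcr_det_mul {I J : Ideal B} (hI : I ≠ 0) (hJ : J ≠ 0) (T : B) :
    LinearMap.det (mwcrMul K (I * J) T) =
      LinearMap.det (mwcrMul K I T) * LinearMap.det (mwcrMul K J T) := by
  rw [mwcr_det_eq_zeros_prod K hres _ (mul_ne_zero hI hJ), mwcr_det_eq_zeros_prod K hres _ hI,
    mwcr_det_eq_zeros_prod K hres _ hJ, mwcrZeros_mul K hres hI hJ, Multiset.map_add,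
    Multiset.prod_add]

/-- multiplicativity of the determinant in `u`: `ρ(u v, T) = ρ(u, T) ρ(v, T)` -/
theorem mwcr_det_span_mul {u v : B} (hu : u ≠ 0) (hv : v ≠ 0) (T : B) :
    LinearMap.det (mwcrMul K (Ideal.span {u * v}) T) =
      LinearMap.det (mwcrMul K (Ideal.span {u}) T) *
        LinearMap.det (mwcrMul K (Ideal.span {v}) T) := by
  have hsu : Ideal.span {u} ≠ 0 := Submodule.span_singleton_eq_bot.mp.mt hu
  have hsv : Ideal.span {v} ≠ 0 := Submodule.span_singleton_eq_bot.mp.mt hv
  have hsuv : Ideal.span {u * v} ≠ 0 :=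
    Submodule.span_singleton_eq_bot.mp.mt (mul_ne_zero hu hv)
  rw [mwcr_det_eq_zeros_prod K hres _ hsuv, mwcr_det_eq_zeros_prod K hres _ hsu,
    mwcr_det_eq_zeros_prod K hres _ hsv, mwcrZeros_span_mul K hres hu hv, Multiset.map_add,
    Multiset.prod_add]

open Classical in
/-- the multiplicity of `q` in `Z(J)` -/
theorem mwcr_count_zeros {J : Ideal B} (hJ : J ≠ 0) (q : B →ₐ[K] K)
    (hq : RingHom.ker (q : B →+* K) ≠ ⊥) :
    Multiset.count q (mwcrZeros K hres J) = multiplicity (RingHom.ker (q : B →+* K)) J := by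
  have h1 : Multiset.count (RingHom.ker (q : B →+* K)) (normalizedFactors J) =
      Multiset.count q (mwcrZeros K hres J) := by
    rw [← mwcrZeros_map_ker K hres J]
    exact Multiset.count_map_eq_count' _ _ (mwcr_ker_injective (K := K) (B := B)) q
  rw [← h1]
  have hmax := mwcr_ker_isMaximal q
  have hprime : Prime (RingHom.ker (q : B →+* K)) := Ideal.prime_of_isPrime hq hmax.isPrime
  have hfm : FiniteMultiplicity (RingHom.ker (q : B →+* K)) J :=
    FiniteMultiplicity.of_prime_left hprime hJ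
  have h2 := emultiplicity_eq_count_normalizedFactors hprime.irreducible hJ
  rw [normalize_eq, hfm.emultiplicity_eq_multiplicity] at h2
  exact_mod_cast h2.symm

open Classical in
/-- `k ≤ mult_q(J) ↔ J ≤ 𝔪_q ^ k` -/
theorem mwcr_le_count_zeros_iff {J : Ideal B} (hJ : J ≠ 0) (q : B →ₐ[K] K)
    (hq : RingHom.ker (q : B →+* K) ≠ ⊥) (k : ℕ) :
    k ≤ Multiset.count q (mwcrZeros K hres J) ↔ J ≤ RingHom.ker (q : B →+* K) ^ k := by
  have hprime : Prime (RingHom.ker (q : B →+* K)) :=
    Ideal.prime_of_isPrime hq (mwcr_ker_isMaximal q).isPrime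
  have hfm : FiniteMultiplicity (RingHom.ker (q : B →+* K)) J :=
    FiniteMultiplicity.of_prime_left hprime hJ
  rw [mwcr_count_zeros K hres hJ q hq, ← hfm.pow_dvd_iff_le_multiplicity, Ideal.dvd_iff_le]

/-- antitonicity of the zero cycle -/
theorem mwcrZeros_anti {J J' : Ideal B} (hJ : J ≠ 0) (h : J ≤ J') :
    mwcrZeros K hres J' ≤ mwcrZeros K hres J := by
  have hJ' : J' ≠ 0 := by
    rintro rfl
    exact hJ (le_bot_iff.mp h)
  rw [← Multiset.map_le_map_iff (mwcr_ker_injective (K := K) (B := B)), mwcrZeros_map_ker,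
    mwcrZeros_map_ker, ← dvd_iff_normalizedFactors_le_normalizedFactors hJ' hJ, Ideal.dvd_iff_le]
  exact h

/-- the zero cycle of a product of point ideals -/
theorem mwcrZeros_prod_ker (A : Multiset (B →ₐ[K] K))
    (hA : ∀ q ∈ A, RingHom.ker (q : B →+* K) ≠ ⊥) :
    mwcrZeros K hres (A.map fun q : B →ₐ[K] K => RingHom.ker (q : B →+* K)).prod = A := by
  apply Multiset.map_injective (mwcr_ker_injective (K := K) (B := B))
  rw [mwcrZeros_map_ker]
  apply normalizedFactors_prod_of_prime
  intro P hP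
  rw [Multiset.mem_map] at hP
  obtain ⟨q, hq, rfl⟩ := hP
  exact Ideal.prime_of_isPrime (hA q hq) (mwcr_ker_isMaximal q).isPrime

theorem mwcr_prod_ker_ne_zero (A : Multiset (B →ₐ[K] K))
    (hA : ∀ q ∈ A, RingHom.ker (q : B →+* K) ≠ ⊥) :
    (A.map fun q : B →ₐ[K] K => RingHom.ker (q : B →+* K)).prod ≠ 0 := by
  apply Multiset.prod_ne_zero
  intro h0
  rw [Multiset.mem_map] at h0
  obtain ⟨q, hq, h⟩ := h0
  exact hA q hq h

/-- `Z(J) ≤ A ↔ ∏_{q ∈ A} 𝔪_q ≤ J`: the sections vanishing on the cycle `A` -/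
theorem mwcr_prod_ker_le_iff {J : Ideal B} (hJ : J ≠ 0) (A : Multiset (B →ₐ[K] K))
    (hA : ∀ q ∈ A, RingHom.ker (q : B →+* K) ≠ ⊥) :
    J ≤ (A.map fun q : B →ₐ[K] K => RingHom.ker (q : B →+* K)).prod ↔
      A ≤ mwcrZeros K hres J := by
  have h0 := mwcr_prod_ker_ne_zero K hres A hA
  rw [← Ideal.dvd_iff_le, dvd_iff_normalizedFactors_le_normalizedFactors h0 hJ,
    ← mwcrZeros_map_ker K hres, ← mwcrZeros_map_ker K hres J,
    Multiset.map_le_map_iff (mwcr_ker_injective (K := K) (B := B)), mwcrZeros_prod_ker K hres A hA]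

end Zeros

section Closed

variable {K M B : Type*} [Field K] [IsAlgClosed K] [Field M] [Algebra K M] [CommRing B]
  [IsDedekindDomain B] [Algebra K B] [Algebra B M] [IsScalarTower K B M] [IsFractionRing B M]

/-- the height one prime of a `K`-point (when `B` is not a field) -/
def mwcrPrime (hB : ¬ IsField B) (q : B →ₐ[K] K) : HeightOneSpectrum B where
  asIdeal := RingHom.ker (q : B →+* K)
  isPrime := (mwcr_ker_isMaximal q).isPrime
  ne_bot := fun h0 => hB (by
    have := mwcr_ker_isMaximal q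
    rw [h0] at this
    exact Ring.isField_iff_maximal_bot.mpr this)

@[simp] theorem mwcrPrime_asIdeal (hB : ¬ IsField B) (q : B →ₐ[K] K) :
    (mwcrPrime hB q).asIdeal = RingHom.ker (q : B →+* K) := rfl

open Classical in
/-- **the multiplicity of a point in the zero cycle of `u` is the order of `u` at its place** -/
theorem mwcr_count_zeros_span_eq_ord
    (hfin : ∀ P : Ideal B, P.IsMaximal → Module.Finite K (B ⧸ P)) (hB : ¬ IsField B)
    {u : B} (hu : u ≠ 0) (q : B →ₐ[K] K) :
    ((Multiset.count q (mwcrZeros K (mwcr_hres hfin) (Ideal.span {u})) : ℕ) : ℤ) =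
      (AlgebraicCurve.Place.ofHeightOneSpectrum (K := K) (F := M) (mwcrPrime hB q)).ord
        (algebraMap B M u) := by
  have hsr : Ideal.span {u} ≠ 0 := Submodule.span_singleton_eq_bot.mp.mt hu
  rw [mwcr_count_zeros K (mwcr_hres hfin) hsr q (mwcrPrime hB q).ne_bot,
    v27c_ord_eq_multiplicity (mwcrPrime hB q) hu]
  rfl

/-- every height one prime is the kernel of a unique `K`-point -/
theorem mwcr_exists_point (hfin : ∀ P : Ideal B, P.IsMaximal → Module.Finite K (B ⧸ P))
    (P : HeightOneSpectrum B) :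
    ∃! q : B →ₐ[K] K, RingHom.ker (q : B →+* K) = P.asIdeal := by
  have h1 : P.asIdeal ≠ ⊤ := P.isPrime.ne_top
  have h2 : Function.Surjective (algebraMap K (B ⧸ P.asIdeal)) :=
    mwcr_hres hfin _ P.isMaximal
  refine ⟨mwcrChar P.asIdeal h1 h2, mwcrChar_ker P.asIdeal h1 h2, ?_⟩
  intro q hq
  apply mwcr_ker_injective
  show RingHom.ker (q : B →+* K) = RingHom.ker ((mwcrChar P.asIdeal h1 h2 : B →ₐ[K] K) : B →+* K)
  rw [hq]
  exact (mwcrChar_ker P.asIdeal h1 h2).symm

end Closed

end Fermat.Agent.MW
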